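/-
PROJECT D (S48), part B, block B3, brick C (cusps of `X₁(M)` in residue characteristic `2`, `3`),
file `RedFamily` (helper6): REDUCTION OF AN EMBEDDING INTO LAURENT SERIES, generic.

Generic twin of main's `S37/Cusps/EmbeddingsK` (`Lfam_Vj`, `exists_Lbar`, `Lbar_rescale`), in the
abstract setting of `S37/Wild/GaussA`: `(L, A)` a valued field with residue map `π : A →+* k`,
`FL / L`, `Fk / k` algebras over the lines `RatFunc L`, `RatFunc k`, `R` a Gauss datum with
`X ∈ R.O` reducing to `X`.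

Target: `Ω = L((t))`, `V = {a / s : a, s ∈ A((t)), s̄ ≠ 0}` (main's `FracLocal.fracSubring`) with its
reduction `ρ : V →+* k((t))`.  Let `Λ : FL →+* L((t))` be a ring homomorphism which is the identity
on the constants and maps `X` into `V`, to a series `u = ρ (Λ X)` TRANSCENDENTAL over `k` (no
shape is asked of `Λ X`: in the application `Λ X` is a conjugate of `j`, not `J(t^N)`).

* `map_Vj` : `Λ` maps the Gauss valuation ring `Vj` of `RatFunc L` into `V`, compatibly with the
  reductions, through `lam = (X ↦ u) : RatFunc k →+* k((t))`;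
* `exists_Lbar` : if moreover `Λ` maps into `V` a set `S ⊆ R.O` whose residues generate `Fk` over
  `RatFunc k`, then `Λ` maps `R.O` into `V` and induces `Lbar : Fk →+* k((t))` with
  `Lbar (red x) = ρ (Λ x)`;
* `Lbar_rescale` : equivariance under `t ↦ ζ t`, `ζ ∈ Aˣ`.
-/
import Mathlib
import Fermat.Agent.S18.A.Chart
import Fermat.Agent.S28.LaurentRescale
import Fermat.Agent.S37.Wild.GaussA
import Fermat.Agent.S37.Cusps.FracLocal
import Fermat.Agent.S37.Cusps.RedEmb

set_option autoImplicit false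
set_option linter.unusedSectionVars false
set_option linter.style.haveILetI false
set_option warn.classDefReducibility false

noncomputable section

namespace Fermat.Agent.S48.B.Red.Cusp1.RedFamily

open Polynomial ModularCurve
open Fermat.Agent.S28.LaurentRescale
open Fermat.Agent.S37.Deuring.Core Fermat.Agent.S37.Wild.GaussA
open Fermat.Agent.S18.C.UnramVal
open Fermat.Agent.S37.Cusps Fermat.Agent.S37.Cusps.FracLocal

/-! ### coefficient maps -/

section Coeff

variable {R S : Type*} [CommRing R] [CommRing S] (φ : R →+* S)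

theorem coeffMap_C' (r : R) :
    coeffMap φ (HahnSeries.C r : LaurentSeries R) = HahnSeries.C (φ r) := by
  have h1 : (HahnSeries.C r : LaurentSeries R) = HahnSeries.single 0 r := rfl
  have h2 : (HahnSeries.C (φ r) : LaurentSeries S) = HahnSeries.single 0 (φ r) := rfl
  rw [h1, h2, coeffMap_single]

theorem coeffMap_injective' (hφ : Function.Injective φ) : Function.Injective (coeffMap φ) := by
  intro x y h
  ext n
  apply hφ
  rw [← coeffMap_coeff, ← coeffMap_coeff, h]

end Coeff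

variable {L : Type*} [Field L] {FL : Type*} [Field FL] [Algebra L FL]
variable {k : Type*} [Field k] {Fk : Type*} [Field Fk] [Algebra k Fk]
variable [Algebra (RatFunc L) FL] [IsScalarTower L (RatFunc L) FL]
variable [Algebra (RatFunc k) Fk] [IsScalarTower k (RatFunc k) Fk]
variable {A : ValuationSubring L} {π : A →+* k}

/-- `A((t)) → L((t))` -/
def incA (A : ValuationSubring L) : LaurentSeries ↥A →+* LaurentSeries L := coeffMap A.subtype

/-- `A((t)) → k((t))` -/
def rhoA (π : A →+* k) : LaurentSeries ↥A →+* LaurentSeries k := coeffMap π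

theorem incA_injective (A : ValuationSubring L) : Function.Injective (incA A) :=
  coeffMap_injective' _ Subtype.val_injective

/-- the local ring `{a / s : a, s ∈ A((t)), s̄ ≠ 0}` of `L((t))` -/
abbrev VA (π : A →+* k) : Subring (LaurentSeries L) := fracSubring (incA A) (rhoA π)

/-- its reduction `a / s ↦ ā / s̄` -/
abbrev rhoV (π : A →+* k) : ↥(VA π) →+* LaurentSeries k :=
  fracRed (incA A) (rhoA π) (incA_injective A)

/-- constants of `A` in `V` -/
def constV (π : A →+* k) : ↥A →+* ↥(VA π) :=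
  ((incA A).comp (HahnSeries.C : ↥A →+* LaurentSeries ↥A)).codRestrict (VA π)
    (fun _ => inc_mem _)

theorem coe_constV (a : ↥A) :
    ((constV π a : ↥(VA π)) : LaurentSeries L) = HahnSeries.C (a : L) := by
  show incA A (HahnSeries.C a) = _
  rw [incA, coeffMap_C']
  rfl

theorem rhoV_constV (a : ↥A) : rhoV π (constV π a) = HahnSeries.C (π a) := by
  show rhoV π ⟨incA A (HahnSeries.C a), inc_mem _⟩ = _
  rw [fracRed_inc, rhoA, coeffMap_C']

section Main

variable (R : GaussDatum A π FL Fk)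
  (hx : algebraMap (RatFunc L) FL RatFunc.X ∈ R.O)
  (hrx : R.red ⟨_, hx⟩ = algebraMap (RatFunc k) Fk RatFunc.X)
variable (Λ : FL →+* LaurentSeries L)
  (hΛc : ∀ c : L, Λ (algebraMap L FL c) = HahnSeries.C c)
  (hΛX : Λ (algebraMap (RatFunc L) FL RatFunc.X) ∈ VA π)
  (hu : Transcendental k (rhoV π ⟨_, hΛX⟩))

/-- `RatFunc k → k((t))`, `X ↦ u = ρ (Λ X)` -/
def lam : RatFunc k →+* LaurentSeries k :=
  (Fermat.Agent.S18.A.Chart.evalRat hu).toRingHom

theorem lam_X : lam Λ hΛX hu RatFunc.X = rhoV π ⟨_, hΛX⟩ :=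
  Fermat.Agent.S18.A.Chart.evalRat_X _

theorem lam_C (c : k) : lam Λ hΛX hu (RatFunc.C c) = HahnSeries.C c := by
  rw [← RatFunc.algebraMap_eq_C]
  show (Fermat.Agent.S18.A.Chart.evalRat hu) (algebraMap _ _ c) = _
  rw [AlgHom.commutes, algebraMap_laurentSeries_eq_single]
  rfl

/-- polynomials over `A` evaluated at `Λ X`, inside `V` -/
def evV : (↥A)[X] →+* ↥(VA π) :=
  Polynomial.eval₂RingHom (constV π) ⟨_, hΛX⟩

include hΛc in
/-- `Λ` on the polynomials over `A` in `X` -/
theorem Λ_polyL (p : (↥A)[X]) :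
    Λ (algebraMap (RatFunc L) FL (polyL p)) = ((evV Λ hΛX p : ↥(VA π)) : LaurentSeries L) := by
  have h : (Λ.comp (algebraMap (RatFunc L) FL)).comp (polyL (A := A)) =
      (VA π).subtype.comp (evV Λ hΛX) := by
    refine Polynomial.ringHom_ext (fun a => ?_) ?_
    · simp only [RingHom.comp_apply, evV, Polynomial.coe_eval₂RingHom, Polynomial.eval₂_C,
        polyL, Polynomial.coe_mapRingHom, Polynomial.map_C]
      rw [RatFunc.algebraMap_C, ← RatFunc.algebraMap_eq_C, ← IsScalarTower.algebraMap_apply,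
        Subring.subtype_apply, coe_constV]
      exact hΛc _
    · simp only [RingHom.comp_apply, evV, Polynomial.coe_eval₂RingHom, Polynomial.eval₂_X,
        polyL, Polynomial.coe_mapRingHom, Polynomial.map_X, RatFunc.algebraMap_X]
      rfl
  exact congrFun (congrArg DFunLike.coe h) p

/-- reduction of the polynomials over `A` evaluated at `Λ X` -/
theorem rhoV_evV (p : (↥A)[X]) :
    rhoV π (evV Λ hΛX p) = lam Λ hΛX hu (polyK π p) := by
  have h : (rhoV π).comp (evV Λ hΛX) = (lam Λ hΛX hu).comp (polyK π) := by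
    refine Polynomial.ringHom_ext (fun a => ?_) ?_
    · simp only [RingHom.comp_apply, evV, Polynomial.coe_eval₂RingHom, Polynomial.eval₂_C,
        polyK, Polynomial.coe_mapRingHom, Polynomial.map_C]
      rw [RatFunc.algebraMap_C, lam_C, rhoV_constV]
    · simp only [RingHom.comp_apply, evV, Polynomial.coe_eval₂RingHom, Polynomial.eval₂_X,
        polyK, Polynomial.coe_mapRingHom, Polynomial.map_X, RatFunc.algebraMap_X]
      rw [lam_X]
  exact congrFun (congrArg DFunLike.coe h) p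

include hΛc in
/-- **(a)** `Λ` maps the Gauss valuation ring of `RatFunc L` into `V`, compatibly with the
reductions -/
theorem map_Vj (x : ↥(Vj R)) :
    ∃ hx' : Λ (algebraMap (RatFunc L) FL (x : RatFunc L)) ∈ VA π,
      rhoV π ⟨_, hx'⟩ = lam Λ hΛX hu (redVj R hx hrx x) := by
  obtain ⟨a, s, hs, h⟩ := (mem_Vj_iff R hx hrx (x : RatFunc L)).mp x.2
  have hrel : Λ (algebraMap (RatFunc L) FL (x : RatFunc L)) *
      ((evV Λ hΛX s : ↥(VA π)) : LaurentSeries L) =
      ((evV Λ hΛX a : ↥(VA π)) : LaurentSeries L) := by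
    rw [← Λ_polyL Λ hΛc hΛX, ← Λ_polyL Λ hΛc hΛX, ← map_mul, ← map_mul, h]
  have hsK : lam Λ hΛX hu (polyK π s) ≠ 0 :=
    (map_ne_zero (lam Λ hΛX hu)).mpr (polyK_ne_zero hs)
  have hs' : rhoV π (evV Λ hΛX s) ≠ 0 := by
    rw [rhoV_evV Λ hΛX hu]
    exact hsK
  have hinv : ((evV Λ hΛX s : ↥(VA π)) : LaurentSeries L)⁻¹ ∈ VA π :=
    inv_mem (incA_injective A) (evV Λ hΛX s).2 hs'
  have hs0 : ((evV Λ hΛX s : ↥(VA π)) : LaurentSeries L) ≠ 0 := by
    intro h0
    apply hs'
    have : evV Λ hΛX s = 0 := Subtype.ext h0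
    rw [this, map_zero]
  have hval : Λ (algebraMap (RatFunc L) FL (x : RatFunc L)) =
      ((evV Λ hΛX a : ↥(VA π)) : LaurentSeries L) *
        ((evV Λ hΛX s : ↥(VA π)) : LaurentSeries L)⁻¹ := by
    rw [← hrel, mul_assoc, mul_inv_cancel₀ hs0, mul_one]
  have hmem : Λ (algebraMap (RatFunc L) FL (x : RatFunc L)) ∈ VA π := by
    rw [hval]
    exact (VA π).mul_mem (evV Λ hΛX a).2 hinv
  refine ⟨hmem, ?_⟩
  have h2 := redVj_mul_polyK R hx hrx x h
  have h3 : (⟨_, hmem⟩ : ↥(VA π)) * evV Λ hΛX s = evV Λ hΛX a := Subtype.ext hrel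
  have h4 : rhoV π ⟨_, hmem⟩ * lam Λ hΛX hu (polyK π s) = lam Λ hΛX hu (polyK π a) := by
    rw [← rhoV_evV Λ hΛX hu, ← rhoV_evV Λ hΛX hu, ← map_mul, h3]
  rw [← h2, map_mul] at h4
  exact mul_right_cancel₀ hsK h4

variable [FiniteDimensional (RatFunc L) FL]
variable (hsurj : Function.Surjective R.red)
  (hdim : Module.finrank (RatFunc L) FL ≤ Module.finrank (RatFunc k) Fk)

attribute [local instance] algBelow

include hx hrx hΛc hsurj hdim in
/-- **Existence of the reduced embedding.** -/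
theorem exists_Lbar (S : Set ↥R.O) (hS : Algebra.adjoin (RatFunc k) (R.red '' S) = ⊤)
    (hb : ∀ g ∈ S, Λ ((g : ↥R.O) : FL) ∈ VA π) :
    ∃ Lb : Fk →+* LaurentSeries k,
      (∀ x : ↥R.O, ∃ hx' : Λ (x : FL) ∈ VA π, Lb (R.red x) = rhoV π ⟨_, hx'⟩) ∧
      ∀ c : RatFunc k, Lb (algebraMap _ _ c) = lam Λ hΛX hu c := by
  obtain ⟨t, ht⟩ := Fermat.Agent.S37.Wild.GaussA.exists_hyp R hx hrx hsurj hdim
  have hredV := redVj_surjective R hx hrx R.pi_surjective
  exact RedEmb.exists_redEmb ht hredV S hS (VA π) (rhoV π) Λ (lam Λ hΛX hu)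
    (map_Vj R hx hrx Λ hΛc hΛX hu) hb

/-- a reduced embedding sends constants to constants -/
theorem Lbar_algebraMap {Lb : Fk →+* LaurentSeries k}
    (hLb : ∀ c : RatFunc k, Lb (algebraMap _ _ c) = lam Λ hΛX hu c) (c : k) :
    Lb (algebraMap k Fk c) = HahnSeries.C c := by
  rw [IsScalarTower.algebraMap_apply k (RatFunc k) Fk, hLb, RatFunc.algebraMap_eq_C, lam_C]

/-- a reduced embedding sends `X` to `u` -/
theorem Lbar_X {Lb : Fk →+* LaurentSeries k}
    (hLb : ∀ c : RatFunc k, Lb (algebraMap _ _ c) = lam Λ hΛX hu c) :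
    Lb (algebraMap (RatFunc k) Fk RatFunc.X) = rhoV π ⟨_, hΛX⟩ := by
  rw [hLb, lam_X]

end Main

/-! ### equivariance under `t ↦ ζ t` -/

section Rescale

variable (R : GaussDatum A π FL Fk) (hsurj : Function.Surjective R.red)

include hsurj in
/-- **equivariance**: if `t ↦ ζ t` maps `Λ` to `Λ'`, then `t ↦ ζ̄ t` maps the reduction of `Λ` to
the reduction of `Λ'` -/
theorem Lbar_rescale (ζA : (↥A)ˣ) (Λ Λ' : FL →+* LaurentSeries L)
    (h : Λ' = (rescaleU (Units.map A.subtype.toMonoidHom ζA)).toRingHom.comp Λ)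
    (Lb Lb' : Fk →+* LaurentSeries k)
    (hLb : ∀ x : ↥R.O, ∃ hx' : Λ (x : FL) ∈ VA π, Lb (R.red x) = rhoV π ⟨_, hx'⟩)
    (hLb' : ∀ x : ↥R.O, ∃ hx' : Λ' (x : FL) ∈ VA π, Lb' (R.red x) = rhoV π ⟨_, hx'⟩) :
    Lb' = (rescaleU (Units.map π.toMonoidHom ζA)).toRingHom.comp Lb := by
  apply RingHom.ext
  intro y
  obtain ⟨x, rfl⟩ := hsurj y
  obtain ⟨h1, e1⟩ := hLb' x
  obtain ⟨h2, e2⟩ := hLb x
  rw [RingHom.comp_apply, e1, e2]
  have key := fracRed_map (inc := incA A) (ρ₀ := rhoA π) (incA_injective A)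
    (rescaleU (Units.map A.subtype.toMonoidHom ζA)).toRingHom (rescaleU ζA).toRingHom
    (rescaleU (Units.map π.toMonoidHom ζA)).toRingHom
    (fun a => (coeffMap_rescaleU A.subtype ζA a).symm)
    (fun a => coeffMap_rescaleU π ζA a) h2
  refine Eq.trans ?_ key
  congr 1
  apply Subtype.ext
  show Λ' (x : FL) = _
  rw [h]
  rfl

end Rescale

end Fermat.Agent.S48.B.Red.Cusp1.RedFamily

end
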