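/-
PROJECT D (S48), part B, block B3, brick C (cusps of `X₁(M)` in residue characteristic `2`, `3`),
file `Seams` (helper6, sub-leader `Cusp1/*`): THE TYPED SEAMS OF THE CUSP COUNT.

Route (Framework II = helper11 #5789 (3)): the count is made over the base `J = j(q^M)` (the
`j`-invariant of `E = Tate(q^M)`), because over THIS base all the conjugates of `ℚ̄(X₁(M))` live in
the SAME field `ℚ̄((q))` (helper12's `Igusa/Full`: `FFull M ζ ⊆ K((q))` is Galois over `K(J)` with
group `SL₂(ℤ/M)/±1`, and `q ↦ ζ q` is one of its elements).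

* `jM1 M : F1Bar M`, `jMC M k : F1C M k` : `j(q^M)` and `j̄(q^M)`;
* `CuspFam1 M A` : **THE SEAM** (from `Igusa/Full` + the uniqueness of the Gauss valuation, B2): a
  COMPLETE family `Λ : Q → F1Bar M →+* ℚ̄((q))` of embeddings (`card Q = [F1Bar M : ℚ̄(J)]`, pairwise
  distinct) which are the identity on the constants, send `J` to `J(q^M)`, and send every
  `ℤ`-integral element of `F1 M` into the local ring `V_A = {a / s : a, s ∈ A((q)), s̄ ≠ 0}`
  (= the `q`-expansion principle at all cusps);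
* `SwapL M`, `SwapK M k` : the degrees over `j(q)` and over `j(q^M)` agree (generic brick
  `BaseSwap`: main's `S37/ES/DegreeBeta.relrank_kJ_eq_relrank_kJm` along a prime chain);
* `PolesL M`, `PolesK M k` : `j(q)` and `j(q^M)` have the same poles, in the one direction needed
  on each side (generic brick `PoleSwap`: `j(q^M)` is integral over `ℤ[j(q)]`, main's
  `S28/IntegralChain`; `j̄(q)` is integral over `k[j̄(q^M)]`, main's `S28.Defs.HasModPoly`).

Consumer: `Cusp1/Final.lean` : all of these + `IgusaDeg` + `Deg1` + `HasRep` ⟹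
`SeamsWild.CuspCount₁ M A`.
-/
import Mathlib
import Fermat.Agent.S48.B.Red.Seams
import Fermat.Agent.S48.B.Red.Cusp1.RedFamily

set_option autoImplicit false

noncomputable section

namespace Fermat.Agent.S48.B.Red.Cusp1.Seams

open ModularCurve AlgebraicCurve IntermediateField IsLocalRing
open Fermat.Agent.S48.B.Defs.Model
open Fermat.Agent.S48.B.B1.Seams (jgen1)
open Fermat.Agent.S48.B.Red.Seams (jC)
open Fermat.Agent.S48.B.Red.Cusp1.RedFamily (VA)

local notation "Kb" => AlgebraicClosure ℚ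

/-! ### coefficient maps and `q ↦ q^n` -/

theorem coeffMap_qExpand_gen {R S : Type*} [CommRing R] [CommRing S] (φ : R →+* S) (n : ℕ)
    [NeZero n] (x : LaurentSeries R) :
    coeffMap φ (qExpand R n x) = qExpand S n (coeffMap φ x) := by
  ext m
  by_cases hm : (n : ℤ) ∣ m
  · obtain ⟨l, rfl⟩ := hm
    rw [coeffMap_coeff, qExpand_coeff_mul, qExpand_coeff_mul, coeffMap_coeff]
  · rw [coeffMap_coeff, qExpand_coeff_of_not_dvd n _ hm, qExpand_coeff_of_not_dvd n _ hm,
      map_zero]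

variable (M : ℕ) [NeZero M]

/-! ### `j(q^M)` -/

/-- the `ℤ`-integral series `j(q^M)` -/
def jMZ : LaurentSeries ℤ := qExpand ℤ M (jqModC ℤ)

theorem coeffMap_jMZ {S : Type*} [CommRing S] (φ : ℤ →+* S) :
    coeffMap φ (jMZ M) = qExpand S M (jqModC S) := by
  rw [jMZ, coeffMap_qExpand_gen, coeffMap_jqModC]

theorem coeffMap_jMZ_mem_F1 : coeffMap (Int.castRingHom ℚ) (jMZ M) ∈ F1 M := by
  rw [coeffMap_jMZ, jqModC_rat]
  exact jqd_mem_F1 M dvd_rfl

/-- `j(q^M)` as an element of `ℚ̄(X₁(M))` -/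
def jM1 : F1Bar M :=
  ⟨coeffEmb Kb (coeffMap (Int.castRingHom ℚ) (jMZ M)),
    coeffEmb_mem_laurentBaseChange Kb (coeffMap_jMZ_mem_F1 M)⟩

theorem coe_jM1 : ((jM1 M : F1Bar M) : LaurentSeries Kb) = qExpand Kb M (jqModC Kb) := by
  show coeffEmb Kb (coeffMap (Int.castRingHom ℚ) (jMZ M)) = _
  rw [coeffEmb, coeffMap_coeffMap, coeffMap_jMZ]

/-- `j̄(q^M)` as an element of `k(X₁(M))` -/
def jMC (k : Type*) [Field k] : F1C M k :=
  ⟨coeffMap (Int.castRingHom k) (jMZ M), coeffMap_mem_F1C M k (coeffMap_jMZ_mem_F1 M)⟩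

theorem coe_jMC (k : Type*) [Field k] :
    ((jMC M k : F1C M k) : LaurentSeries k) = qExpand k M (jqModC k) := by
  show coeffMap (Int.castRingHom k) (jMZ M) = _
  rw [coeffMap_jMZ]

/-! ### The seams -/

/-- **THE SEAM of the cusp count** (from `Igusa/Full` and the uniqueness of the Gauss valuation):
a complete family of embeddings of `ℚ̄(X₁(M))` into `ℚ̄((q))` over `j(q^M) ↦ J(q^M)`, mapping the
`ℤ`-integral elements of `F1 M` into the local ring `V_A` (the `q`-expansion principle at all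
cusps). -/
def CuspFam1 (A : ValuationSubring Kb) : Prop :=
  ∃ (Q : Type) (_ : Fintype Q) (Λ : Q → (F1Bar M →+* LaurentSeries Kb)),
    Function.Injective Λ ∧
    Fintype.card Q = Module.finrank ↥Kb⟮jM1 M⟯ (F1Bar M) ∧
    (∀ q (c : Kb), Λ q (algebraMap Kb (F1Bar M) c) = HahnSeries.C c) ∧
    (∀ q, Λ q (jM1 M) = qExpand Kb M (jqModC Kb)) ∧
    ∀ q (x : F1Bar M) (y : LaurentSeries ℤ),
      (x : LaurentSeries Kb) = coeffMap (Int.castRingHom Kb) y →
        Λ q x ∈ VA (IsLocalRing.residue ↥A)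

/-- the degree of `ℚ̄(X₁(M))` over `ℚ̄(j(q^M))` is the degree over `ℚ̄(j(q))` -/
def SwapL : Prop :=
  Module.finrank ↥Kb⟮jM1 M⟯ (F1Bar M) = Module.finrank ↥Kb⟮jgen1 M⟯ (F1Bar M)

/-- the degree of `k(X₁(M))` over `k(j̄(q^M))` is the degree over `k(j̄(q))` -/
def SwapK (k : Type*) [Field k] : Prop :=
  Module.finrank ↥k⟮jMC M k⟯ (F1C M k) = Module.finrank ↥k⟮jC M k⟯ (F1C M k)

/-- in characteristic zero, `j(q^M)` is regular wherever `j(q)` is -/
def PolesL : Prop :=
  ∀ v : Place Kb (F1Bar M), jgen1 M ∈ v.toValuationSubring → jM1 M ∈ v.toValuationSubring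

/-- over `k`, `j̄(q)` is regular wherever `j̄(q^M)` is -/
def PolesK (k : Type*) [Field k] : Prop :=
  ∀ v : Place k (F1C M k), jMC M k ∈ v.toValuationSubring → jC M k ∈ v.toValuationSubring

end Fermat.Agent.S48.B.Red.Cusp1.Seams

end
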