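/-
PROJECT D (S48), part B, block B3, brick C (cusps of `X₁(M)` in residue characteristic `2`, `3`),
file `FromFull` (helper16): THE SEAM `Cusp1.Seams.CuspFam1 M A` FROM helper12's PACKAGE `Igusa/Full`
AND THE STABILITY OF THE GAUSS RING OF `FF_M` UNDER `Gal(FF_M / K(j(q^M)))` (helper25's `D' = ⊤`).

`K = ℚ̄`, `ζ ∈ ℚ̄` with `ιC ζ = e(1/M)` for an embedding `ιC : ℚ̄ →+* ℂ`.  By helper12's
`Igusa/Full/Galois` (whose analytic input is the theorem `Analytic/WpInput.input`) the field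
`FFull M ζ ⊆ ℚ̄((q))` is finite Galois over `ℚ̄(j(q^M))` with group the image of
`act : SL(2, ZMod M) →* _`.  Hence (file `Count`) the restrictions of the `act g` to `F1Bar M` form a
complete family of `[F1Bar M : ℚ̄(j(q^M))]` pairwise distinct embeddings of `F1Bar M` into `ℚ̄((q))`,
the identity on the constants and on `j(q^M)`.

The `q`-expansion principle at all cusps (the last clause of `CuspFam1`) comes from a smaller
coefficient field `L ⊆ ℚ̄` carrying a valuation `v` under `A`: an element `x` of `F1 M` with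
`ℤ`-coefficients is coefficientwise `v`-integral in `FFull M ζL`; by the hypothesis `hD`
(`act g` preserves `GaussDVR.InOw v (FFull M ζL)`) so is `act g x = a / b`, `b` primitive; the
coefficient map `L((q)) → ℚ̄((q))` intertwines the two actions (file `Functor`) and sends `a / b`
into `VA` (file `Integral`).

helper12's (E4a) `laurentBaseChange L (F1 M) ≤ FFull M ζL` is his theorem `Extra.F1_le`.
THE ONLY HYPOTHESIS LEFT IS `hD`.
-/
import Mathlib
import Fermat.Agent.S30.Descent.Cap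
import Fermat.Agent.S48.B.Igusa.Full.Analytic.WpInput
import Fermat.Agent.S48.B.Igusa.Full.Extra
import Fermat.Agent.S48.B.Red.Cusp1.Seams
import Fermat.Agent.S48.B.Red.Cusp1.FromFull.Functor
import Fermat.Agent.S48.B.Red.Cusp1.FromFull.Count
import Fermat.Agent.S48.B.Red.Cusp1.FromFull.Integral

set_option autoImplicit false

noncomputable section

namespace Fermat.Agent.S48.B.Red.Cusp1.FromFull

open ModularCurve IntermediateField
open Fermat.Agent.S48.B.Defs.Model
open Fermat.Agent.S48.B.Igusa.Full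
open Fermat.Agent.S48.B.Igusa.Full.Defs Fermat.Agent.S48.B.Igusa.Full.Family
open Fermat.Agent.S48.B.Igusa.Full.Galois
open Fermat.Agent.S48.B.Igusa.GaussDVR
open Fermat.Agent.S48.B.Red.Cusp1.Seams
open Fermat.Agent.S48.B.Red.Cusp1.RedFamily (VA)
open scoped MatrixGroups

local notation "Kb" => AlgebraicClosure ℚ

variable {M : ℕ} [NeZero M]

/-! ### Small bridges -/

/-- `coeffMap ι ∘ coeffEmb L = coeffEmb K'` -/
theorem coeffMap_coeffEmb' {L K' : Type*} [Field L] [Field K'] [Algebra ℚ L] [Algebra ℚ K']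
    (ι : L →+* K') (z : LaurentSeries ℚ) : coeffMap ι (coeffEmb L z) = coeffEmb K' z := by
  show coeffMap ι (coeffMap (algebraMap ℚ L) z) = coeffMap (algebraMap ℚ K') z
  rw [coeffMap_coeffMap]
  exact coeffMap_congr (RingHom.ext_rat _ _) z

/-- `coeffEmb L` of a series with `ℤ`-coefficients -/
theorem coeffEmb_intCast {L : Type*} [Field L] [Algebra ℚ L] (y : LaurentSeries ℤ) :
    coeffEmb L (coeffMap (Int.castRingHom ℚ) y) = coeffMap (Int.castRingHom L) y := by
  show coeffMap (algebraMap ℚ L) (coeffMap (Int.castRingHom ℚ) y) = _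
  rw [coeffMap_coeffMap]
  exact coeffMap_congr (RingHom.ext_int _ _) y

/-- an element of `F1Bar M` with `ℤ`-coefficients comes from `F1 M` -/
theorem mem_F1_of_mem_F1Bar {y : LaurentSeries ℤ}
    (hy : coeffMap (Int.castRingHom Kb) y ∈ F1Bar M) :
    coeffMap (Int.castRingHom ℚ) y ∈ F1 M := by
  refine Fermat.Agent.S30.Descent.Cap.mem_of_coeffMap_mem_adjoin (K := ℚ) (K' := Kb) (F1 M) ?_
  have h1 : coeffMap (algebraMap ℚ Kb) (coeffMap (Int.castRingHom ℚ) y) =
      coeffMap (Int.castRingHom Kb) y := coeffEmb_intCast (L := Kb) y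
  rw [h1]
  exact hy

/-- integers are `v`-integral -/
theorem v_intCast_le_one {L : Type*} [Field L] {Γ₀ : Type*} [LinearOrderedCommGroupWithZero Γ₀]
    (v : Valuation L Γ₀) (n : ℤ) : v (n : L) ≤ 1 :=
  (Valuation.mem_valuationSubring_iff v _).1 (intCast_mem v.valuationSubring n)

/-- a series with `ℤ`-coefficients is coefficientwise `v`-integral -/
theorem intCast_mem_Ol {L : Type*} [Field L] {Γ₀ : Type*} [LinearOrderedCommGroupWithZero Γ₀]
    (v : Valuation L Γ₀) (y : LaurentSeries ℤ) : coeffMap (Int.castRingHom L) y ∈ Ol v := by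
  intro n
  rw [coeffMap_coeff]
  exact v_intCast_le_one v _

/-- a primitive `M`-th root of unity of `ℚ̄` over `e(1/M)` -/
theorem exists_zeta (ιC : Kb →+* ℂ) : ∃ ζ : Kb, ιC ζ = zetaC M := by
  obtain ⟨ζ₀, hζ₀⟩ := HasEnoughRootsOfUnity.exists_primitiveRoot Kb M
  have h1 : IsPrimitiveRoot (ιC ζ₀) M := hζ₀.map_of_injective ιC.injective
  have h2 : zetaC M ^ M = 1 := Fermat.Agent.S48.B.Igusa.Full.Analytic.WpInput.zetaC_pow_self M
  obtain ⟨i, -, hi⟩ := h1.eq_pow_of_pow_eq_one h2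
  exact ⟨ζ₀ ^ i, by rw [map_pow, hi]⟩

/-- helper12's `Extra.F1_le` for an arbitrary `ℚ`-algebra structure on the field -/
theorem F1_le' {L : Type*} [Field L] [inst : Algebra ℚ L] {ι : L →+* ℂ} {ζL : L}
    (h : Input M ι ζL) : laurentBaseChange L (F1 M) ≤ FFull M ζL := by
  have hc : CharZero L := algebraRat.charZero L
  have e : inst = DivisionRing.toRatAlgebra := Subsingleton.elim _ _
  subst e
  exact Fermat.Agent.S48.B.Igusa.Full.Extra.F1_le h

/-! ### The family -/

section Family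

variable (ιC : Kb →+* ℂ) (ζ : Kb) (hζ : ιC ζ = zetaC M) (hF : F1Bar M ≤ FFull M ζ)

include hζ in
/-- the analytic input over `ℚ̄` -/
theorem inputKb : Input M ιC ζ :=
  Fermat.Agent.S48.B.Igusa.Full.Analytic.WpInput.input M ιC ζ hζ

theorem base_eq :
    K0 M ζ = adjoin Kb {inclusion hF (jM1 M)} := by
  have h1 : GalPerm.gen Kb (yF M ζ) none = inclusion hF (jM1 M) := by
    apply Subtype.ext
    show jM Kb M = ((jM1 M : ↥(F1Bar M)) : LaurentSeries Kb)
    rw [coe_jM1]
    rfl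
  show adjoin Kb {GalPerm.gen Kb (yF M ζ) none} = _
  rw [h1]

/-- **the complete family of embeddings of `F1Bar M` over `j(q^M)`**, each of them the restriction
of some `act g` -/
theorem exists_family :
    ∃ (Q : Type) (_ : Fintype Q) (Λ : Q → (↥(F1Bar M) →+* LaurentSeries Kb)),
      Function.Injective Λ ∧
      Fintype.card Q = Module.finrank ↥Kb⟮jM1 M⟯ ↥(F1Bar M) ∧
      (∀ q (c : Kb), Λ q (algebraMap Kb ↥(F1Bar M) c) = HahnSeries.C c) ∧
      (∀ q, Λ q (jM1 M) = qExpand Kb M (jqModC Kb)) ∧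
      ∀ q, ∃ g : SL(2, ZMod M), ∀ x : ↥(F1Bar M),
        Λ q x = ((act (inputKb ιC ζ hζ) g (inclusion hF x) : ↥(FFull M ζ)) : LaurentSeries Kb) := by
  have : IsGalois ↥(K0 M ζ) ↥(FFull M ζ) := isGalois (inputKb ιC ζ hζ)
  have : FiniteDimensional ↥(K0 M ζ) ↥(FFull M ζ) := finiteDimensional (inputKb ιC ζ hζ)
  obtain ⟨Q, fQ, Λ, hinj, hcard, hconst, hj, hσ⟩ :=
    Count.exists_family (FFull M ζ) (F1Bar M) hF (K0 M ζ) (jM1 M) (base_eq ζ hF)
  refine ⟨Q, fQ, Λ, hinj, hcard, fun q c => ?_, fun q => ?_, fun q => ?_⟩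
  · rw [hconst q c, algebraMap_laurentSeries_eq_single]
    rfl
  · rw [hj q, coe_jM1]
  · obtain ⟨σ, hσq⟩ := hσ q
    obtain ⟨g, rfl⟩ := act_surjective (inputKb ιC ζ hζ) σ
    exact ⟨g, hσq⟩

end Family

/-! ### The seam -/

/-- **`CuspFam1 M A`** from the stability of the Gauss ring of `FFull M ζL` under `act`
(helper25's `D' = ⊤`). -/
theorem cuspFam1_of {L : Type*} [Field L] [Algebra ℚ L] (ι : L →+* Kb) (ζL : L)
    {Γ₀ : Type*} [LinearOrderedCommGroupWithZero Γ₀] (v : Valuation L Γ₀)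
    (A : ValuationSubring Kb) (hv : ∀ c : L, v c ≤ 1 → ι c ∈ A)
    (ιC : Kb →+* ℂ) (hζ : ιC (ι ζL) = zetaC M)
    (hD : ∀ (h : Input M (ιC.comp ι) ζL) (g : SL(2, ZMod M)) (x : ↥(FFull M ζL)),
      InOw v (FFull M ζL) (x : LaurentSeries L) →
        InOw v (FFull M ζL) ((act h g x : ↥(FFull M ζL)) : LaurentSeries L)) :
    CuspFam1 M A := by
  have hL : Input M (ιC.comp ι) ζL :=
    Fermat.Agent.S48.B.Igusa.Full.Analytic.WpInput.input M (ιC.comp ι) ζL hζ
  have hF1 : laurentBaseChange L (F1 M) ≤ FFull M ζL := F1_le' hL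
  -- (E4a) over `ℚ̄` from (E4a) over `L`
  have hF : F1Bar M ≤ FFull M (ι ζL) := by
    show adjoin Kb (⇑(coeffEmb Kb) '' ((F1 M : IntermediateField ℚ (LaurentSeries ℚ)) :
      Set (LaurentSeries ℚ))) ≤ _
    rw [adjoin_le_iff]
    rintro _ ⟨z, hz, rfl⟩
    rw [← coeffMap_coeffEmb' ι z]
    exact Functor.coeffMap_mem_FFull ι ζL (hF1 (coeffEmb_mem_laurentBaseChange L hz))
  obtain ⟨Q, fQ, Λ, hinj, hcard, hconst, hj, hg⟩ := exists_family ιC (ι ζL) hζ hF
  refine ⟨Q, fQ, Λ, hinj, hcard, hconst, hj, fun q x y hxy => ?_⟩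
  obtain ⟨g, hgq⟩ := hg q
  rw [hgq x]
  -- the element over `L`
  have hy : coeffMap (Int.castRingHom ℚ) y ∈ F1 M := by
    apply mem_F1_of_mem_F1Bar
    rw [← hxy]
    exact x.2
  have hxL : coeffMap (Int.castRingHom L) y ∈ FFull M ζL := by
    rw [← coeffEmb_intCast]
    exact hF1 (coeffEmb_mem_laurentBaseChange L hy)
  have hmap : Functor.mapFF ι ζL ⟨_, hxL⟩ = inclusion hF x := by
    apply Subtype.ext
    show coeffMap ι (coeffMap (Int.castRingHom L) y) = (x : LaurentSeries Kb)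
    rw [hxy, coeffMap_coeffMap]
    exact coeffMap_congr (RingHom.ext_int _ _) y
  have hIn : InOw v (FFull M ζL) (coeffMap (Int.castRingHom L) y) :=
    inOw_of_mem hxL (intCast_mem_Ol v y)
  have hIn' := hD hL g ⟨_, hxL⟩ hIn
  have hmem := Integral.mem_VA_of_inOw (A := A) (ι := ι) hv hIn'
  rw [Functor.coeffMap_act hL (inputKb ιC (ι ζL) hζ) g, hmap] at hmem
  exact hmem

/-- an embedding `L →+* ℂ` extends to `ℚ̄` along any `ι : L →+* ℚ̄` -/
theorem exists_extension {L : Type*} [Field L] (ι : L →+* Kb) (ιL : L →+* ℂ) :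
    ∃ ιC : Kb →+* ℂ, ιC.comp ι = ιL := by
  let _ : Algebra L Kb := ι.toAlgebra
  let _ : Algebra L ℂ := ιL.toAlgebra
  have : CharZero L := (RingHom.charZero_iff ι.injective).2 inferInstance
  let _ : Algebra ℚ L := DivisionRing.toRatAlgebra
  have : IsScalarTower ℚ L Kb := IsScalarTower.of_algebraMap_eq fun q =>
    DFunLike.congr_fun
      (RingHom.ext_rat (algebraMap ℚ Kb) ((algebraMap L Kb).comp (algebraMap ℚ L))) q
  have h1 : Algebra.IsAlgebraic ℚ Kb := AlgebraicClosure.isAlgebraic ℚ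
  have : Algebra.IsAlgebraic L Kb := Algebra.IsAlgebraic.tower_top (K := ℚ) L
  let f : Kb →ₐ[L] ℂ := IsAlgClosed.lift
  refine ⟨f.toRingHom, ?_⟩
  ext c
  exact f.commutes c

/-- **`CuspFam1 M A`**, in the shape of helper23's export `U1.Main.inOw_act`: the analytic input
is given over `L` (an embedding `ιL : L →+* ℂ` with `ιL ζL = e(1/M)`), and `act h` preserves the
Gauss ring of `FFull M ζL`. -/
theorem cuspFam1_of_input {L : Type*} [Field L] [Algebra ℚ L] (ι : L →+* Kb) (ζL : L)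
    {Γ₀ : Type*} [LinearOrderedCommGroupWithZero Γ₀] (v : Valuation L Γ₀)
    (A : ValuationSubring Kb) (hv : ∀ c : L, v c ≤ 1 → ι c ∈ A)
    {ιL : L →+* ℂ} (h : Input M ιL ζL)
    (hD : ∀ (g : SL(2, ZMod M)) (x : ↥(FFull M ζL)),
      InOw v (FFull M ζL) (x : LaurentSeries L) →
        InOw v (FFull M ζL) ((act h g x : ↥(FFull M ζL)) : LaurentSeries L)) :
    CuspFam1 M A := by
  obtain ⟨ιC, rfl⟩ := exists_extension ι ιL
  exact cuspFam1_of ι ζL v A hv ιC h.zeta fun _ g x => hD g x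

/-- the same for a subfield `L ⊆ ℚ̄` with the valuation ring `A ∩ L` (e.g. main's inertia field
`SmallDVR.K0 A` with `SmallDVR.W A`, which is `A.comap (algebraMap (K0 A) ℚ̄)` by definition) -/
theorem cuspFam1_of_subfield (L : IntermediateField ℚ Kb) (ζL : ↥L) (A : ValuationSubring Kb)
    (ιC : Kb →+* ℂ) (hζ : ιC ((ζL : ↥L) : Kb) = zetaC M)
    (hD : ∀ (h : Input M (ιC.comp (algebraMap ↥L Kb)) ζL) (g : SL(2, ZMod M))
      (x : ↥(FFull M ζL)),
      InOw (A.comap (algebraMap ↥L Kb)).valuation (FFull M ζL) (x : LaurentSeries ↥L) →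
        InOw (A.comap (algebraMap ↥L Kb)).valuation (FFull M ζL)
          ((act h g x : ↥(FFull M ζL)) : LaurentSeries ↥L)) :
    CuspFam1 M A :=
  cuspFam1_of (algebraMap ↥L Kb) ζL (A.comap (algebraMap ↥L Kb)).valuation A
    (fun c hc => (ValuationSubring.valuation_le_one_iff _ c).1 hc) ιC hζ hD

/-- the subfield form of `cuspFam1_of_input` -/
theorem cuspFam1_of_input_subfield (L : IntermediateField ℚ Kb) (ζL : ↥L) (A : ValuationSubring Kb)
    {ιL : ↥L →+* ℂ} (h : Input M ιL ζL)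
    (hD : ∀ (g : SL(2, ZMod M)) (x : ↥(FFull M ζL)),
      InOw (A.comap (algebraMap ↥L Kb)).valuation (FFull M ζL) (x : LaurentSeries ↥L) →
        InOw (A.comap (algebraMap ↥L Kb)).valuation (FFull M ζL)
          ((act h g x : ↥(FFull M ζL)) : LaurentSeries ↥L)) :
    CuspFam1 M A :=
  cuspFam1_of_input (algebraMap ↥L Kb) ζL (A.comap (algebraMap ↥L Kb)).valuation A
    (fun c hc => (ValuationSubring.valuation_le_one_iff _ c).1 hc) h hD

end Fermat.Agent.S48.B.Red.Cusp1.FromFull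

end
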