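import Mathlib
import Fermat.Agent.S28.Step.Tower
import Fermat.Agent.S28.Step.OfDefs
import Fermat.Agent.S28.ModPolyPrime
import Fermat.Agent.S28.PrimeCaseForm
import Fermat.Agent.S48.B.Red.Cusp1.Seams

/-!
# PROJECT D (S48), part B, block B3, brick C (cusps of `X₁(M)`), generic brick `BaseSwap` (helper1)

`k` algebraically closed, `M ≠ 0` in `k`, `E ⊆ k((q))` a field containing all `J(q^d)`, `d ∣ M`.
Then `[E : k(J(q))] = [E : k(J(q^M))]` (as relative ranks, cardinal form, and as `finrank`s over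
`↥E`): along a chain `1 = d₀ ∣ d₁ ∣ … ∣ M` of prime steps `d ↦ d p`, the field
`k(J(q^d), J(q^(d p)))` (the image under `q ↦ q^d` of `k(J, J(q^p))`) has degree `p + 1` over both
`k(J(q^d))` and `k(J(q^(d p)))` (main's `S28/Step/Tower`: `PrimeLevel.relrank_kJ_sup`,
`PrimeLevel.relrank_kJm_sup`).

Corollaries: `swapL M : Seams.SwapL M`, `swapK M k hM : Seams.SwapK M k`.
-/

set_option autoImplicit false

noncomputable section

namespace Fermat.Agent.S48.B.Red.Cusp1.BaseSwap

open ModularCurve IntermediateField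
open Fermat.Agent.S28.StepDeg
open Fermat.Agent.S48.B.Defs.Model
open Fermat.Agent.S48.B.B1.Seams (jgen1)
open Fermat.Agent.S48.B.Red.Seams (jC coe_jC)
open Fermat.Agent.S48.B.Red.Cusp1.Seams

local notation "Kb" => AlgebraicClosure ℚ

/-! ### the chain of prime steps -/

section Abstract

variable {k : Type*} [Field k]

theorem kJm_congr {m n : ℕ} [NeZero m] [NeZero n] (h : m = n) : kJm k m = kJm k n := by
  subst h
  rfl

theorem kJm_one : kJm k 1 = kJ k := by
  rw [kJm, qExpand_one_apply, kJ]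

theorem kJm_map (d m : ℕ) [NeZero d] [NeZero m] :
    (kJm k m).map (qExpandAlgHomC k d) = kJm k (d * m) := by
  rw [kJm, IntermediateField.adjoin_map, Set.image_singleton, qExpandAlgHomC_apply,
    qExpand_qExpand]
  rfl

/-- the prime step `d ↦ d p`, transported from `d = 1` by `q ↦ q^d` -/
theorem relrank_kJm_step {p : ℕ} [NeZero p] [NeZero (p * p)] (PL : PrimeLevel k p) (hp : 2 ≤ p)
    (d : ℕ) [NeZero d] (E : IntermediateField k (LaurentSeries k)) (hd : kJm k d ≤ E)
    (hdp : kJm k (d * p) ≤ E) :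
    IntermediateField.relrank (kJm k d) E = IntermediateField.relrank (kJm k (d * p)) E := by
  have hK : kJm k d ⊔ kJm k (d * p) ≤ E := sup_le hd hdp
  have r1 := IntermediateField.relrank_mul_relrank
    (le_sup_left : kJm k d ≤ kJm k d ⊔ kJm k (d * p)) hK
  have r2 := IntermediateField.relrank_mul_relrank
    (le_sup_right : kJm k (d * p) ≤ kJm k d ⊔ kJm k (d * p)) hK
  have e1 : IntermediateField.relrank (kJm k d) (kJm k d ⊔ kJm k (d * p)) =
      ((p + 1 : ℕ) : Cardinal) := by
    calc IntermediateField.relrank (kJm k d) (kJm k d ⊔ kJm k (d * p))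
        = IntermediateField.relrank ((kJ k).map (qExpandAlgHomC k d))
            ((kJ k ⊔ kJm k p).map (qExpandAlgHomC k d)) := by
          rw [IntermediateField.map_sup, kJ_map, kJm_map]
      _ = IntermediateField.relrank (kJ k) (kJ k ⊔ kJm k p) :=
          IntermediateField.relrank_map_map _ _ _
      _ = ((p + 1 : ℕ) : Cardinal) := PL.relrank_kJ_sup hp
  have e2 : IntermediateField.relrank (kJm k (d * p)) (kJm k d ⊔ kJm k (d * p)) =
      ((p + 1 : ℕ) : Cardinal) := by
    calc IntermediateField.relrank (kJm k (d * p)) (kJm k d ⊔ kJm k (d * p))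
        = IntermediateField.relrank ((kJm k p).map (qExpandAlgHomC k d))
            ((kJm k p ⊔ kJ k).map (qExpandAlgHomC k d)) := by
          rw [IntermediateField.map_sup, kJ_map, kJm_map, sup_comm]
      _ = IntermediateField.relrank (kJm k p) (kJm k p ⊔ kJ k) :=
          IntermediateField.relrank_map_map _ _ _
      _ = ((p + 1 : ℕ) : Cardinal) := PL.relrank_kJm_sup hp
  rw [← r1, ← r2, e1, e2]

/-- **the chain**: `[E : k(J)] = [E : k(J(q^d))]` for every `d ∣ M` -/
theorem relrank_kJ_eq_relrank_kJm_aux [IsAlgClosed k] (M : ℕ) (hM : (M : k) ≠ 0)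
    (E : IntermediateField k (LaurentSeries k))
    (hE : ∀ d : ℕ, d ∣ M → ∀ [NeZero d], kJm k d ≤ E) :
    ∀ (n d : ℕ), d ≤ n → d ∣ M → ∀ [NeZero d],
      IntermediateField.relrank (kJ k) E = IntermediateField.relrank (kJm k d) E := by
  intro n
  induction n with
  | zero =>
    intro d hd0 _ inst
    exact absurd (Nat.le_zero.1 hd0) (NeZero.ne d)
  | succ n ih =>
    intro d hdn hdM inst
    by_cases h1 : d = 1
    · subst h1
      rw [kJm_one]
    · have hp : (d.minFac).Prime := Nat.minFac_prime h1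
      obtain ⟨d', hd'⟩ := Nat.minFac_dvd d
      have hd'0 : d' ≠ 0 := by
        rintro rfl
        rw [mul_zero] at hd'
        exact NeZero.ne d hd'
      have : NeZero d' := ⟨hd'0⟩
      have : NeZero d.minFac := ⟨hp.ne_zero⟩
      have : Fact (d.minFac).Prime := ⟨hp⟩
      have hdd : d = d' * d.minFac := by rw [mul_comm]; exact hd'
      have hd'M : d' ∣ M := Dvd.dvd.trans ⟨d.minFac, hdd⟩ hdM
      have hd'lt : d' < d := by
        conv_rhs => rw [hdd]
        exact lt_mul_of_one_lt_right (Nat.pos_of_ne_zero hd'0) hp.one_lt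
      have hpk : ((d.minFac : ℕ) : k) ≠ 0 := by
        obtain ⟨m, hm⟩ := (Nat.minFac_dvd d).trans hdM
        intro h0
        apply hM
        rw [hm, Nat.cast_mul, h0, zero_mul]
      have PL : PrimeLevel k d.minFac :=
        PrimeLevel.ofDefs hpk (Fermat.Agent.S28.ModPolyPrime.hasModPoly k d.minFac hp)
          (Fermat.Agent.S28.PrimeCaseForm.qExpand_jqModC_not_mem k d.minFac hpk)
      have ih' := ih d' (by omega) hd'M
      have hdE : kJm k (d' * d.minFac) ≤ E := by
        rw [← kJm_congr hdd]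
        exact hE d hdM
      have hstep := relrank_kJm_step PL hp.two_le d' E (hE d' hd'M) hdE
      rw [ih', hstep, kJm_congr hdd]

/-- **`[E : k(J(q))] = [E : k(J(q^M))]`**, cardinal form. -/
theorem relrank_kJ_eq_relrank_kJm [IsAlgClosed k] (M : ℕ) [NeZero M] (hM : (M : k) ≠ 0)
    (E : IntermediateField k (LaurentSeries k))
    (hE : ∀ d : ℕ, d ∣ M → ∀ [NeZero d], qExpand k d (jqModC k) ∈ E) :
    IntermediateField.relrank (kJ k) E = IntermediateField.relrank (kJm k M) E := by
  refine relrank_kJ_eq_relrank_kJm_aux M hM E (fun d hd inst => ?_) M M le_rfl dvd_rfl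
  rw [kJm, IntermediateField.adjoin_le_iff]
  rintro x rfl
  exact hE d hd

end Abstract

/-! ### `finrank` over `↥E` -/

section Finrank

variable {K Ω : Type*} [Field K] [Field Ω] [Algebra K Ω]

/-- the degree of `E` over `K(x)`, `x ∈ E`, is the relative degree inside `Ω` -/
theorem finrank_adjoin_eq_relfinrank (E : IntermediateField K Ω) (x : ↥E) :
    Module.finrank ↥K⟮x⟯ ↥E = IntermediateField.relfinrank K⟮(x : Ω)⟯ E := by
  have h1 : (K⟮x⟯).map E.val = K⟮(x : Ω)⟯ := by
    rw [IntermediateField.adjoin_map, Set.image_singleton]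
    rfl
  have h2 : (⊤ : IntermediateField K ↥E).map E.val = E := by
    rw [← AlgHom.fieldRange_eq_map, IntermediateField.fieldRange_val]
  calc Module.finrank ↥K⟮x⟯ ↥E
      = IntermediateField.relfinrank K⟮x⟯ (⊤ : IntermediateField K ↥E) :=
        (IntermediateField.relfinrank_top_right _).symm
    _ = IntermediateField.relfinrank ((K⟮x⟯).map E.val)
          ((⊤ : IntermediateField K ↥E).map E.val) :=
        (IntermediateField.relfinrank_map_map _ _ _).symm
    _ = IntermediateField.relfinrank K⟮(x : Ω)⟯ E := by rw [h1, h2]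

end Finrank

/-- **`[E : k(J(q^M))] = [E : k(J(q))]`**, `finrank` form over `↥E`. -/
theorem finrank_swap {k : Type*} [Field k] [IsAlgClosed k] (M : ℕ) [NeZero M] (hM : (M : k) ≠ 0)
    (E : IntermediateField k (LaurentSeries k))
    (hE : ∀ d : ℕ, d ∣ M → ∀ [NeZero d], qExpand k d (jqModC k) ∈ E) (x y : ↥E)
    (hx : (x : LaurentSeries k) = jqModC k) (hy : (y : LaurentSeries k) = qExpand k M (jqModC k)) :
    Module.finrank ↥k⟮y⟯ ↥E = Module.finrank ↥k⟮x⟯ ↥E := by
  rw [finrank_adjoin_eq_relfinrank, finrank_adjoin_eq_relfinrank, hx, hy]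
  have h := relrank_kJ_eq_relrank_kJm M hM E hE
  exact (congrArg Cardinal.toNat h).symm

/-! ### the two seams -/

section X1

variable (M : ℕ) [NeZero M]

theorem qExpand_jqModC_mem_F1Bar (d : ℕ) (hd : d ∣ M) [NeZero d] :
    qExpand Kb d (jqModC Kb) ∈ F1Bar M := by
  have h1 : qExpand Kb d (jqModC Kb) = coeffEmb Kb (qExpand ℚ d jq) := by
    rw [coeffEmb_qExpand, coeffEmb, ← jqModC_rat, coeffMap_jqModC]
  rw [h1]
  exact coeffEmb_mem_laurentBaseChange Kb (jqd_mem_F1 M hd)

theorem qExpand_jqModC_mem_F1C (k : Type*) [Field k] (d : ℕ) (hd : d ∣ M) [NeZero d] :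
    qExpand k d (jqModC k) ∈ F1C M k := by
  have h1 : qExpand k d (jqModC k) =
      coeffMap (Int.castRingHom k) (qExpand ℤ d (jqModC ℤ)) := by
    rw [coeffMap_qExpand_gen, coeffMap_jqModC]
  rw [h1]
  refine coeffMap_mem_F1C M k ?_
  rw [coeffMap_qExpand_gen, coeffMap_jqModC, jqModC_rat]
  exact jqd_mem_F1 M hd

theorem coe_jgen1 : ((jgen1 M : ↥(F1Bar M)) : LaurentSeries Kb) = jqModC Kb := by
  have h1 : ((jgen1 M : ↥(F1Bar M)) : LaurentSeries Kb) =
      ((Fermat.Agent.S24.DegreeAlg.jgen M : ↥(modularFunctionFieldBar M)) : LaurentSeries Kb) := rfl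
  rw [h1, Fermat.Agent.S24.DegreeAlg.coe_jgen, coeffEmb, ← jqModC_rat, coeffMap_jqModC]

/-- **`SwapL`**: `[ℚ̄(X₁(M)) : ℚ̄(j(q^M))] = [ℚ̄(X₁(M)) : ℚ̄(j(q))]`. -/
theorem swapL : SwapL M :=
  finrank_swap M (Nat.cast_ne_zero.mpr (NeZero.ne M)) (F1Bar M)
    (fun d hd _ => qExpand_jqModC_mem_F1Bar M d hd) (jgen1 M) (jM1 M) (coe_jgen1 M) (coe_jM1 M)

/-- **`SwapK`**: `[k(X₁(M)) : k(j̄(q^M))] = [k(X₁(M)) : k(j̄(q))]` for `k` algebraically closed with
`M ≠ 0` in `k`. -/
theorem swapK (k : Type*) [Field k] [IsAlgClosed k] (hM : (M : k) ≠ 0) : SwapK M k :=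
  finrank_swap M hM (F1C M k) (fun d hd _ => qExpand_jqModC_mem_F1C M k d hd) (jC M k) (jMC M k)
    (coe_jC M k) (coe_jMC M k)

end X1

end Fermat.Agent.S48.B.Red.Cusp1.BaseSwap
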