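/-
PROJECT D (S48), part B, block B3, brick C (cusps of `X₁(M)` in residue characteristic `2`, `3`),
file `Count` (helper6): THE TWO-SIDED COUNT, generic.

Two function fields `F₁ / K₁`, `F₂ / K₂` (algebraically closed constants, any characteristics) with
separating elements `x₁`, `x₂`, and two COMPLETE families of embeddings indexed by the SAME finite
set `Q`,

  `L₁ : Q → F₁ →+* K₁'((t))`,  `L₂ : Q → F₂ →+* K₂'((t))`,

sending constants to constants and `xᵢ` to `J(t^N)`.  If the substitution `t ↦ ζ t` acts on the two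
families compatibly (`htrans`: whenever `L₁ q' = (t ↦ ζ₁ t) ∘ L₁ q`, also
`L₂ q' = (t ↦ ζ₂ t) ∘ L₂ q`; in the application `L₂` is the reduction of `L₁`), then `x₁` and `x₂`
have the same number of poles: both are counted by the orbits of ONE permutation of `Q`
(main's `S37/Cusps/RescaleCount`).  No analytic input, no explicit expansions.
-/
import Mathlib
import Fermat.Agent.S37.Cusps.RescaleCount

set_option autoImplicit false

noncomputable section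

namespace Fermat.Agent.S48.B.Red.Cusp1.Count

open HahnSeries ModularCurve IntermediateField Module AlgebraicCurve
open Fermat.Agent.S28.LaurentRescale Fermat.Agent.S24.FF Fermat.Agent.S18.A
open Fermat.Agent.S37.Cusps

/-- **The two-sided count.** -/
theorem card_poles_eq_of_families
    {K₁ F₁ K₁' : Type*} [Field K₁] [Field F₁] [Algebra K₁ F₁] [Field K₁'] [IsAlgClosed K₁]
    {K₂ F₂ K₂' : Type*} [Field K₂] [Field F₂] [Algebra K₂ F₂] [Field K₂'] [IsAlgClosed K₂]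
    {x₁ : F₁} (hx₁ : IsFF K₁ x₁) (hsep₁ : Algebra.IsSeparable K₁⟮x₁⟯ F₁)
    {x₂ : F₂} (hx₂ : IsFF K₂ x₂) (hsep₂ : Algebra.IsSeparable K₂⟮x₂⟯ F₂)
    {Q : Type*} [Fintype Q] (N : ℕ) [NeZero N]
    (L₁ : Q → F₁ →+* LaurentSeries K₁') (hinj₁ : Function.Injective L₁)
    (hcard₁ : Fintype.card Q = finrank K₁⟮x₁⟯ F₁)
    (g₁ : K₁ →+* K₁') (hconst₁ : ∀ q (c : K₁), L₁ q (algebraMap K₁ F₁ c) = HahnSeries.C (g₁ c))
    (hLx₁ : ∀ q, L₁ q x₁ = qExpand K₁' N (jqModC K₁'))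
    (L₂ : Q → F₂ →+* LaurentSeries K₂') (hinj₂ : Function.Injective L₂)
    (hcard₂ : Fintype.card Q = finrank K₂⟮x₂⟯ F₂)
    (g₂ : K₂ →+* K₂') (hconst₂ : ∀ q (c : K₂), L₂ q (algebraMap K₂ F₂ c) = HahnSeries.C (g₂ c))
    (hLx₂ : ∀ q, L₂ q x₂ = qExpand K₂' N (jqModC K₂'))
    (ζ₁ : K₁'ˣ) (hζ₁ : IsPrimitiveRoot ζ₁ N) (ζ₂ : K₂'ˣ) (hζ₂ : IsPrimitiveRoot ζ₂ N)
    (htrans : ∀ q q', L₁ q' = (rescaleU ζ₁).toRingHom.comp (L₁ q) →
      L₂ q' = (rescaleU ζ₂).toRingHom.comp (L₂ q)) :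
    (FibreSep.poles hx₂ hsep₂).card = (FibreSep.poles hx₁ hsep₁).card := by
  have := hx₁.finite
  have := hx₂.finite
  obtain ⟨s, hs⟩ := RescaleCount.exists_perm (K := K₁) (x := x₁) L₁ hinj₁ hcard₁ g₁ hconst₁ N hLx₁
    ζ₁ hζ₁.pow_eq_one
  have h1 := RescaleCount.card_poles_eq hx₁ hsep₁ L₁ hinj₁ hcard₁ g₁ hconst₁ N hLx₁ ζ₁ hζ₁ s hs
  have h2 := RescaleCount.card_poles_eq hx₂ hsep₂ L₂ hinj₂ hcard₂ g₂ hconst₂ N hLx₂ ζ₂ hζ₂ s
    (fun q => htrans q (s q) (hs q))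
  rw [h1, h2]

end Fermat.Agent.S48.B.Red.Cusp1.Count

end
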