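/-
PROJECT D (S48), part B, block B3, brick C (cusps of `X₁(M)` in residue characteristic `2`, `3`),
file `Inj` (helper6): THE REDUCTION OF A COMPLETE FAMILY OF EMBEDDINGS IS INJECTIVE, generic.

Setting of main's `S18/C/UnramVal` + `S37/Cusps/RedEmb`: `E ⊆ F` finite separable, `O` a valuation
ring of `F`, `V₀ = O ∩ E`, `red : O → κ`, `redV : V₀ → κ₀` with `h : Hyp E O red redV t` (`O` is free
over `V₀` on the lifts `t` of a basis of `κ / κ₀`), `κ / κ₀` separable.

Let `L : Q → F →+* Ω` be a COMPLETE family of embeddings over one embedding `L₀` of `E`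
(`card Q = [F : E]`, pairwise distinct), `V ⊆ Ω` a subring with `ρ : V →+* Ωk`, and
`Lbar : Q → κ →+* Ωk` the reduced family: `Lbar q (red x) = ρ (L q x)` for `x ∈ O`.  Then the
`Lbar q` are pairwise distinct.

Proof (discriminants; no generators, no explicit expansions): for the square matrix
`P = (L q (t i))`, `Pᵀ P = L₀ (Tr (t i * t j))`, so `(det P)² = L₀ (disc t)`, which reduces to
`lam (disc t̄) ≠ 0`; two equal `Lbar` would give two equal rows of `ρ P`.
-/
import Mathlib
import Fermat.Agent.S18.C.UnramVal

set_option autoImplicit false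
set_option linter.unusedSectionVars false
set_option linter.style.haveILetI false
set_option warn.classDefReducibility false

noncomputable section

namespace Fermat.Agent.S48.B.Red.Cusp1.Inj

open Module Fermat.Agent.S18.C.UnramVal

/-! ### the trace is the sum over a complete family of embeddings -/

section Trace

variable {k0 F Ω : Type*} [Field k0] [Field F] [Algebra k0 F] [FiniteDimensional k0 F]
  [Algebra.IsSeparable k0 F] [Field Ω]

/-- If `Q` indexes `finrank k0 F` pairwise distinct ring homs `F →+* Ω` all restricting to `L0` on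
`k0`, then `L0 (trace b)` is the sum of the `L q b`.  (Twin of main's
`S24.AllPlaces.map_norm_eq_prod`.) -/
theorem map_trace_eq_sum {Q : Type*} [Fintype Q] (L : Q → F →+* Ω)
    (hinj : Function.Injective L) (hcard : Fintype.card Q = finrank k0 F)
    (L0 : k0 →+* Ω) (hbase : ∀ q y, L q (algebraMap k0 F y) = L0 y) (b : F) :
    L0 (Algebra.trace k0 F b) = ∑ q, L q b := by
  classical
  let E := AlgebraicClosure Ω
  letI : Algebra k0 E := ((algebraMap Ω E).comp L0).toAlgebra
  let σ : Q → (F →ₐ[k0] E) := fun q =>
    { toRingHom := (algebraMap Ω E).comp (L q)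
      commutes' := fun y => by
        show algebraMap Ω E (L q (algebraMap k0 F y)) = algebraMap Ω E (L0 y)
        rw [hbase] }
  have hσinj : Function.Injective σ := by
    intro q q' h
    apply hinj
    ext f
    have := congrArg (fun s : F →ₐ[k0] E => s f) h
    exact (algebraMap Ω E).injective this
  have hσbij : Function.Bijective σ := by
    rw [Fintype.bijective_iff_injective_and_card]
    exact ⟨hσinj, by rw [hcard, AlgHom.card]⟩
  have h1 := trace_eq_sum_embeddings (K := k0) (L := F) E (x := b)
  have h2 : ∑ s : F →ₐ[k0] E, s b = ∑ q, σ q b :=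
    (Fintype.sum_bijective σ hσbij _ _ (fun _ => rfl)).symm
  have h3 : ∑ q, σ q b = algebraMap Ω E (∑ q, L q b) := by
    rw [map_sum]; rfl
  have h4 : algebraMap k0 E (Algebra.trace k0 F b) = algebraMap Ω E (L0 (Algebra.trace k0 F b)) :=
    rfl
  rw [h4, h2, h3] at h1
  exact (algebraMap Ω E).injective h1

end Trace

/-! ### the reduced family is injective -/

section Main

variable {E : Type*} {F : Type*} [Field E] [Field F] [Algebra E F] [FiniteDimensional E F]
  [Algebra.IsSeparable E F]
variable {O : ValuationSubring F}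
variable {κ : Type*} [Field κ] {red : ↥O →+* κ}
variable {κ₀ : Type*} [Field κ₀] [Algebra κ₀ κ] {redV : ↥(below E O) →+* κ₀}
variable {ι : Type*} [Fintype ι] {t : ι → ↥O}
variable {Ω Ωk : Type*} [Field Ω] [Field Ωk]

attribute [local instance] algBelow

/-- the trace of `F / E` on `O` is the trace of `O / V₀` -/
theorem trace_coe [DecidableEq ι] (h : Hyp E O red redV t) (x : ↥O) :
    Algebra.trace E F (x : F) = ((Algebra.trace ↥(below E O) ↥O x : ↥(below E O)) : E) := by
  refine trace_map (below E O).subtype O.subtype h.basisV h.basisE (fun r => ?_) (fun i => ?_) x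
  · rfl
  · rw [h.basisE_apply, h.basisV_apply]
    rfl

/-- **The reduced family is injective.** -/
theorem injective_of_hyp (h : Hyp E O red redV t) [Algebra.IsSeparable κ₀ κ]
    {Q : Type*} [Fintype Q] (L : Q → F →+* Ω) (hinj : Function.Injective L)
    (hcard : Fintype.card Q = finrank E F)
    (L₀ : E →+* Ω) (hbase : ∀ q y, L q (algebraMap E F y) = L₀ y)
    (V : Subring Ω) (ρ : ↥V →+* Ωk) (lam : κ₀ →+* Ωk)
    (ha : ∀ x : ↥(below E O), ∃ hx : L₀ (x : E) ∈ V, ρ ⟨_, hx⟩ = lam (redV x))
    (Lbar : Q → κ →+* Ωk)
    (hLbar : ∀ q (x : ↥O), ∃ hx : L q (x : F) ∈ V, Lbar q (red x) = ρ ⟨L q (x : F), hx⟩) :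
    Function.Injective Lbar := by
  classical
  let e : ι ≃ Q := Fintype.equivOfCardEq (h.card.trans hcard.symm)
  -- the matrix of the values of the family on the basis, over `V`
  let P : Matrix ι ι ↥V := fun k i => ⟨L (e k) ((t i : ↥O) : F), (hLbar (e k) (t i)).1⟩
  -- the discriminant
  set D : ↥(below E O) := Algebra.discr ↥(below E O) h.basisV with hD
  obtain ⟨hDV, hDρ⟩ := ha D
  -- `Pᵀ P` is the image of the trace matrix
  have hgram : (P.map V.subtype).transpose * P.map V.subtype =
      (Algebra.traceMatrix ↥(below E O) h.basisV).map (fun x => L₀ (x : E)) := by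
    ext i j
    rw [Matrix.mul_apply, Matrix.map_apply, Algebra.traceMatrix_apply, Algebra.traceForm_apply]
    have h1 : ∀ k : ι, (P.map V.subtype).transpose i k * (P.map V.subtype) k j =
        L (e k) (((t i * t j : ↥O)) : F) := by
      intro k
      rw [Matrix.transpose_apply, Matrix.map_apply, Matrix.map_apply]
      show L (e k) ((t i : ↥O) : F) * L (e k) ((t j : ↥O) : F) = _
      rw [← map_mul]
      rfl
    rw [Finset.sum_congr rfl (fun k _ => h1 k),
      Equiv.sum_comp e (fun q => L q (((t i * t j : ↥O)) : F)),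
      ← map_trace_eq_sum L hinj hcard L₀ hbase, trace_coe h, h.basisV_apply, h.basisV_apply]
  -- determinants
  have hdetΩ : ((P.det : ↥V) : Ω) = (P.map V.subtype).det := by
    have := RingHom.map_det V.subtype P
    rw [RingHom.mapMatrix_apply] at this
    exact this
  have hsq : ((P.det * P.det : ↥V) : Ω) = L₀ (D : E) := by
    rw [Subring.coe_mul, hdetΩ]
    have h2 : (P.map V.subtype).det * (P.map V.subtype).det =
        ((P.map V.subtype).transpose * P.map V.subtype).det := by
      rw [Matrix.det_mul, Matrix.det_transpose]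
    rw [h2, hgram, hD, Algebra.discr_def]
    have h3 := RingHom.map_det (L₀.comp (below E O).subtype)
      (Algebra.traceMatrix ↥(below E O) h.basisV)
    rw [RingHom.mapMatrix_apply] at h3
    exact h3.symm
  have hsq' : P.det * P.det = ⟨L₀ (D : E), hDV⟩ := Subtype.ext hsq
  -- the reduction of the discriminant is not zero
  have hne : ρ (P.det) ≠ 0 := by
    intro h0
    have h4 : ρ (⟨L₀ (D : E), hDV⟩ : ↥V) = 0 := by rw [← hsq', map_mul, h0, zero_mul]
    rw [hDρ, hD, h.redV_discr] at h4
    haveI : Module.Finite κ₀ κ := Module.Finite.of_basis h.basisRes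
    exact Algebra.discr_not_zero_of_basis κ₀ h.basisRes
      ((map_eq_zero_iff lam lam.injective).mp h4)
  -- two equal members of the reduced family give two equal rows
  intro q q' hqq
  by_contra hne'
  apply hne
  have h5 := RingHom.map_det ρ P
  rw [RingHom.mapMatrix_apply] at h5
  rw [h5]
  have hrow : ∀ k i, (P.map ρ) k i = Lbar (e k) (red (t i)) := by
    intro k i
    rw [Matrix.map_apply]
    obtain ⟨hx, hL⟩ := hLbar (e k) (t i)
    rw [hL]
  refine Matrix.det_zero_of_row_eq (i := e.symm q) (j := e.symm q') ?_ ?_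
  · intro heq
    exact hne' (e.symm.injective heq)
  · funext i
    rw [hrow, hrow, Equiv.apply_symm_apply, Equiv.apply_symm_apply, hqq]

end Main

end Fermat.Agent.S48.B.Red.Cusp1.Inj

end
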