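/-
PROJECT D (S48), part B, block B3, brick C (cusps of `X₁(M)` in residue characteristic `2`, `3`),
file `Final` (helper6): THE CUSP COUNT FOR `X₁(M)` from the seams of `Cusp1/Seams.lean`.

`A` a valuation ring of `ℚ̄` over a prime `ℓ ∤ M`, `κ = κ(A)`, `R = Inputs1.datum₁ hrep` the
canonical Gauss datum of `(F1Bar M, F1C M κ)`.

  `cuspCount₁_of : IgusaDeg M → Deg1 M → HasRep .. → CuspFam1 M A → SwapL M → SwapK M κ →
      PolesL M → PolesK M κ → SeamsWild.CuspCount₁ M A`

The complete family `Λ` of `CuspFam1` (base `J = j(q^M)`, target `ℚ̄((q))`) maps the `ℤ`-integral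
elements into `V_A`; their residues generate `F1C M κ` (by definition), so `RedFamily.exists_Lbar`
reduces every `Λ q` to `Lbar q : F1C M κ →+* κ((q))`; the reduced family is complete
(`Inj.injective_of_hyp`) and equivariant under `q ↦ ζ q` (`RedFamily.Lbar_rescale`), hence
`#poles(j̄(q^M)) = #poles(j(q^M))` (`Count.card_poles_eq_of_families`), and
`#poles(j̄(q)) ≤ #poles(j̄(q^M))`, `#poles(j(q^M)) ≤ #poles(j(q))` by `PolesK`, `PolesL`.
-/
import Mathlib
import Fermat.Agent.S18.ResidueBasics
import Fermat.Agent.S18.C.BaseChangeR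
import Fermat.Agent.S18.B.SeparableFk
import Fermat.Agent.S18.A.DualChart
import Fermat.Agent.S37.Cusps.CountK
import Fermat.Agent.S37.Cusps.EmbeddingsK
import Fermat.Agent.S48.B.Red.Inputs1
import Fermat.Agent.S48.B.Red.SeamsWild
import Fermat.Agent.S48.B.Red.Cusp1.Seams
import Fermat.Agent.S48.B.Red.Cusp1.Count
import Fermat.Agent.S48.B.Red.Cusp1.Inj
import Fermat.Agent.S48.B.Red.Cusp1.RedFamily

set_option autoImplicit false
set_option linter.unusedSectionVars false
set_option linter.style.haveILetI false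
set_option synthInstance.maxHeartbeats 400000
set_option warn.classDefReducibility false

noncomputable section

namespace Fermat.Agent.S48.B.Red.Cusp1.Final

open AlgebraicCurve ModularCurve IntermediateField IsLocalRing
open Fermat.Agent.S48.B.Defs.Model
open Fermat.Agent.S48.B.Red.GaussG Fermat.Agent.S48.B.Red.Gauss1
open Fermat.Agent.S48.B.Red.Seams Fermat.Agent.S48.B.Red.SeamsWild
open Fermat.Agent.S48.B.Red.Inputs1
open Fermat.Agent.S48.B.Red.Cusp1.Seams
open Fermat.Agent.S48.B.B1.Seams (jgen1 Deg1)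
open Fermat.Agent.S24.FF Fermat.Agent.S18.A
open Fermat.Agent.S37.Deuring.Core
open Fermat.Agent.S28.LaurentRescale

local notation "Kb" => AlgebraicClosure ℚ

variable {M : ℕ} [NeZero M] {A : ValuationSubring Kb}

/-! ### `j(q^M)` is a separating variable on both sides -/

theorem transcendental_jM1 : Transcendental Kb (jM1 M) :=
  (transcendental_algebraMap_iff
    (algebraMap (F1Bar M) (LaurentSeries Kb)).injective).mp (by
      show Transcendental Kb ((jM1 M : F1Bar M) : LaurentSeries Kb)
      rw [coe_jM1]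
      exact Fermat.Agent.S37.Cusps.EmbeddingsK.transcendental_JK M Kb)

theorem transcendental_jMC (k : Type*) [Field k] : Transcendental k (jMC M k) :=
  (transcendental_algebraMap_iff
    (algebraMap (F1C M k) (LaurentSeries k)).injective).mp (by
      show Transcendental k ((jMC M k : F1C M k) : LaurentSeries k)
      rw [coe_jMC]
      exact Fermat.Agent.S37.Cusps.EmbeddingsK.transcendental_JK M k)

/-- `θ (J(q^M)) ≠ 0` when `M` is invertible -/
theorem thetaL_jMC_ne_zero (k : Type*) [Field k] (hM : ((M : ℕ) : k) ≠ 0) :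
    Fermat.Agent.S28.ThetaL.thetaL ((jMC M k : F1C M k) : LaurentSeries k) ≠ 0 := by
  rw [coe_jMC, Fermat.Agent.S28.ThetaL.thetaL_qExpand]
  refine mul_ne_zero ?_ ?_
  · have h : ((M : ℕ) : LaurentSeries k) = HahnSeries.C ((M : ℕ) : k) := by simp
    rw [h]
    intro h0
    exact hM (HahnSeries.C_injective (by rw [h0, map_zero]))
  · intro h0
    exact Fermat.Agent.S28.ThetaAdjoin.thetaL_jqModC_ne_zero k
      (qExpand_injective (R := k) (N := M) (by rw [h0, map_zero]))

/-- a `ℤ`-integral element of `F1 M`, in the Gauss valuation ring -/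
def intO (hrep : HasRep A (residue A) (F1 M) (F1C M (ResidueField A))) (y : LaurentSeries ℤ)
    (hy : coeffMap (Int.castRingHom ℚ) y ∈ F1 M) : ↥(datum₁ hrep).O :=
  ⟨toFL A (residue A) (F1 M) (F1C M (ResidueField A)) (intLift A (residue A) M y hy),
    toFL_mem_OwV hrep _⟩

theorem coe_coe_intO (hrep : HasRep A (residue A) (F1 M) (F1C M (ResidueField A)))
    (y : LaurentSeries ℤ) (hy : coeffMap (Int.castRingHom ℚ) y ∈ F1 M) :
    (((intO hrep y hy : ↥(datum₁ hrep).O) : F1Bar M) : LaurentSeries Kb) =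
      coeffMap (Int.castRingHom Kb) y := by
  show ((toFL A (residue A) (F1 M) (F1C M (ResidueField A)) (intLift A (residue A) M y hy) :
    F1Bar M) : LaurentSeries Kb) = _
  rw [coe_toFL_intLift, coeffEmb, coeffMap_coeffMap]
  exact coeffMap_congr (RingHom.ext_int _ _) y

theorem coe_red_intO (hrep : HasRep A (residue A) (F1 M) (F1C M (ResidueField A)))
    (y : LaurentSeries ℤ) (hy : coeffMap (Int.castRingHom ℚ) y ∈ F1 M) :
    (((datum₁ hrep).red (intO hrep y hy) : F1C M (ResidueField A)) :
      LaurentSeries (ResidueField A)) = coeffMap (Int.castRingHom (ResidueField A)) y := by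
  have h := redV_toFL hrep (intLift A (residue A) M y hy)
  have h' : (datum₁ hrep).red (intO hrep y hy) =
      red A (residue A) (F1 M) (F1C M (ResidueField A)) (intLift A (residue A) M y hy) := h
  rw [h', coe_red_intLift]

/-- `j(q^M)` lies in the Gauss valuation ring -/
theorem jM1_eq (hrep : HasRep A (residue A) (F1 M) (F1C M (ResidueField A))) :
    ((intO hrep (jMZ M) (coeffMap_jMZ_mem_F1 M) : ↥(datum₁ hrep).O) : F1Bar M) = jM1 M := by
  apply Subtype.ext
  rw [coe_coe_intO, coe_jM1, coeffMap_jMZ]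

theorem red_jM1 (hrep : HasRep A (residue A) (F1 M) (F1C M (ResidueField A))) :
    (datum₁ hrep).red (intO hrep (jMZ M) (coeffMap_jMZ_mem_F1 M)) = jMC M (ResidueField A) := by
  apply Subtype.ext
  rw [coe_red_intO, coe_jMC, coeffMap_jMZ]

/-! ### The reduced family -/

section Family

variable (hrep : HasRep A (residue A) (F1 M) (F1C M (ResidueField A)))

/-- the set of the `ℤ`-integral elements, in the Gauss valuation ring -/
def intSet : Set ↥(datum₁ hrep).O :=
  {x | ∃ (y : LaurentSeries ℤ) (hy : coeffMap (Int.castRingHom ℚ) y ∈ F1 M), x = intO hrep y hy}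

/-- the residues of the `ℤ`-integral elements generate `F1C M κ` as an algebra over any field
`RatFunc κ` over which it is algebraic -/
theorem adjoin_red_intSet [Algebra (RatFunc (ResidueField A)) (F1C M (ResidueField A))]
    [IsScalarTower (ResidueField A) (RatFunc (ResidueField A)) (F1C M (ResidueField A))]
    [Algebra.IsAlgebraic (RatFunc (ResidueField A)) (F1C M (ResidueField A))] :
    Algebra.adjoin (RatFunc (ResidueField A)) ((datum₁ hrep).red '' intSet hrep) = ⊤ := by
  set T : Set (F1C M (ResidueField A)) := (datum₁ hrep).red '' intSet hrep with hT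
  -- the intermediate field generated over `RatFunc κ`
  have h2 : IntermediateField.adjoin (RatFunc (ResidueField A)) T = ⊤ := by
    rw [eq_top_iff]
    intro z _
    -- `z ∈ F1C = κ(integral reductions)`
    have hz : (z : LaurentSeries (ResidueField A)) ∈ F1C M (ResidueField A) := z.2
    -- the subfield of `κ((q))` of the elements lying in the adjoin
    let W : IntermediateField (ResidueField A) (LaurentSeries (ResidueField A)) :=
      ((IntermediateField.adjoin (RatFunc (ResidueField A)) T).restrictScalars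
        (ResidueField A)).map (F1C M (ResidueField A)).val
    have hW : F1C M (ResidueField A) ≤ W := by
      rw [F1C, IntermediateField.adjoin_le_iff]
      rintro x ⟨y, hy, rfl⟩
      refine ⟨(datum₁ hrep).red (intO hrep y hy), ?_, ?_⟩
      · show (datum₁ hrep).red (intO hrep y hy) ∈
          IntermediateField.adjoin (RatFunc (ResidueField A)) T
        exact IntermediateField.subset_adjoin _ _ ⟨_, ⟨y, hy, rfl⟩, rfl⟩
      · exact coe_red_intO hrep y hy
    obtain ⟨w, hw, hwz⟩ := hW hz
    have : w = z := Subtype.ext hwz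
    rw [← this]
    exact (IntermediateField.mem_restrictScalars (ResidueField A)).mp hw
  rw [← IntermediateField.adjoin_toSubalgebra_of_isAlgebraic
    (fun x _ => Algebra.IsAlgebraic.isAlgebraic x), h2, IntermediateField.top_toSubalgebra]

end Family

/-! ### The cusp count -/

/-- all the members of a family of embeddings which agree on the constants and on `X` agree on
`RatFunc` -/
theorem comp_algebraMap_eq {K F Ω : Type*} [Field K] [Field F] [Algebra K F]
    [Algebra (RatFunc K) F] [IsScalarTower K (RatFunc K) F] [Field Ω]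
    (Λ Λ' : F →+* Ω) (hc : ∀ c : K, Λ (algebraMap K F c) = Λ' (algebraMap K F c))
    (hX : Λ (algebraMap (RatFunc K) F RatFunc.X) = Λ' (algebraMap (RatFunc K) F RatFunc.X)) :
    Λ.comp (algebraMap (RatFunc K) F) = Λ'.comp (algebraMap (RatFunc K) F) := by
  refine IsLocalization.ringHom_ext (nonZeroDivisors (Polynomial K)) ?_
  refine Polynomial.ringHom_ext (fun a => ?_) ?_
  · simp only [RingHom.comp_apply]
    rw [RatFunc.algebraMap_C, ← RatFunc.algebraMap_eq_C, ← IsScalarTower.algebraMap_apply]
    exact hc a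
  · simp only [RingHom.comp_apply]
    rw [RatFunc.algebraMap_X]
    exact hX

set_option maxHeartbeats 1000000 in
/-- **THE CUSP COUNT for `X₁(M)` at `A`**, from the seams. -/
theorem cuspCount₁_of (hdeg : IgusaDeg M) {ℓ : ℕ} (hℓ : ℓ.Prime) (hℓM : ¬ ℓ ∣ M)
    (hA : A.LiesOverPrime ℓ)
    (hrep : HasRep A (residue A) (F1 M) (F1C M (ResidueField A)))
    (hfam : CuspFam1 M A) (hsL : SwapL M) (hsK : SwapK M (ResidueField A))
    (hpL : PolesL M) (hpK : PolesK M (ResidueField A)) : CuspCount₁ M A := by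
  intro _ hxL hsepL hxk hsep
  haveI : Fact ℓ.Prime := ⟨hℓ⟩
  have hM : ((M : ℕ) : ResidueField A) ≠ 0 :=
    Fermat.Agent.S18.ResidueBasics.natCast_ne_zero_of_not_dvd A hA hℓM
  -- the base `j(q^M)` on both sides
  have htL : Transcendental Kb (jM1 M) := transcendental_jM1
  have htk : Transcendental (ResidueField A) (jMC M (ResidueField A)) := transcendental_jMC _
  have hxLM : IsFF Kb (jM1 M) := hxL.of_transcendental htL
  have hxkM : IsFF (ResidueField A) (jMC M (ResidueField A)) := hxk.of_transcendental htk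
  haveI := hxLM.finite
  haveI := hxkM.finite
  haveI := hxL.finite
  haveI := hxk.finite
  have hsepLM : Algebra.IsSeparable ↥Kb⟮jM1 M⟯ (F1Bar M) :=
    Fermat.Agent.S48.B.Inj.Basics.isSeparable_of_isFF hxLM
  have hsepkM : Algebra.IsSeparable ↥(ResidueField A)⟮jMC M (ResidueField A)⟯
      (F1C M (ResidueField A)) := by
    haveI : Algebra.IsIntegral ↥(ResidueField A)⟮jMC M (ResidueField A)⟯
        (F1C M (ResidueField A)) := Algebra.IsIntegral.of_finite _ _
    exact Fermat.Agent.S18.B.SeparableFk.isSeparable_intermediateField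
      (F1C M (ResidueField A)) (jMC M (ResidueField A)) htk (thetaL_jMC_ne_zero _ hM)
  -- the `RatFunc`-structures `X ↦ j(q^M)`
  letI algL : Algebra (RatFunc Kb) ↥(F1Bar M) := Chart.ratAlgebra htL
  haveI : IsScalarTower Kb (RatFunc Kb) ↥(F1Bar M) := Chart.isScalarTower_ratAlgebra htL
  letI algk : Algebra (RatFunc (ResidueField A)) ↥(F1C M (ResidueField A)) :=
    Chart.ratAlgebra htk
  haveI : IsScalarTower (ResidueField A) (RatFunc (ResidueField A)) ↥(F1C M (ResidueField A)) :=
    Chart.isScalarTower_ratAlgebra htk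
  have hfL := Fermat.Agent.S18.C.BaseChangeR.finrank_ratAlgebra htL
  have hfk := Fermat.Agent.S18.C.BaseChangeR.finrank_ratAlgebra htk
  haveI : FiniteDimensional (RatFunc Kb) ↥(F1Bar M) := hfL.1
  haveI : FiniteDimensional (RatFunc (ResidueField A)) ↥(F1C M (ResidueField A)) := hfk.1
  haveI : Algebra.IsSeparable (RatFunc Kb) ↥(F1Bar M) :=
    Fermat.Agent.S18.A.DualChart.isSeparable_rat htL (fun _ => rfl) hsepLM
  haveI : Algebra.IsSeparable (RatFunc (ResidueField A)) ↥(F1C M (ResidueField A)) :=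
    Fermat.Agent.S18.A.DualChart.isSeparable_rat htk (fun _ => rfl) hsepkM
  have hXL : algebraMap (RatFunc Kb) ↥(F1Bar M) RatFunc.X = jM1 M := Chart.evalRat_X htL
  have hXk : algebraMap (RatFunc (ResidueField A)) ↥(F1C M (ResidueField A)) RatFunc.X =
      jMC M (ResidueField A) := Chart.evalRat_X htk
  have hx : algebraMap (RatFunc Kb) ↥(F1Bar M) RatFunc.X ∈ (datum₁ hrep).O := by
    rw [hXL, ← jM1_eq hrep]
    exact (intO hrep _ _).2
  have hrx : (datum₁ hrep).red ⟨_, hx⟩ =
      algebraMap (RatFunc (ResidueField A)) ↥(F1C M (ResidueField A)) RatFunc.X := by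
    rw [hXk, ← red_jM1 hrep]
    congr 1
    exact Subtype.ext (hXL.trans (jM1_eq hrep).symm)
  have hn : Module.finrank ↥Kb⟮jM1 M⟯ (F1Bar M) =
      Module.finrank ↥(ResidueField A)⟮jMC M (ResidueField A)⟯ (F1C M (ResidueField A)) := by
    rw [hsL, hsK]
    exact (hdeg ℓ hℓ hℓM A hA).2.symm
  have hdim : Module.finrank (RatFunc Kb) ↥(F1Bar M) ≤
      Module.finrank (RatFunc (ResidueField A)) ↥(F1C M (ResidueField A)) := by
    rw [hfL.2, hfk.2, hn]
  have hsurj := datum₁_red_surjective hrep
  haveI : Algebra.IsAlgebraic (RatFunc (ResidueField A)) ↥(F1C M (ResidueField A)) :=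
    Algebra.IsAlgebraic.of_finite _ _
  have hS := adjoin_red_intSet hrep
  -- the family in characteristic zero
  obtain ⟨Q, hQ, Λ, hinj, hcard, hconst, hJ, hint⟩ := hfam
  have hJA : ∀ q, Λ q (algebraMap (RatFunc Kb) ↥(F1Bar M) RatFunc.X) =
      RedFamily.incA A (qExpand ↥A M (jqModC ↥A)) := by
    intro q
    rw [hXL, hJ, RedFamily.incA, coeffMap_qExpand_gen, coeffMap_jqModC]
  have hΛX : ∀ q, Λ q (algebraMap (RatFunc Kb) ↥(F1Bar M) RatFunc.X) ∈
      RedFamily.VA (residue A) := by
    intro q
    rw [hJA]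
    exact Fermat.Agent.S37.Cusps.FracLocal.inc_mem _
  have hu : ∀ q, RedFamily.rhoV (residue A) ⟨_, hΛX q⟩ =
      qExpand (ResidueField A) M (jqModC (ResidueField A)) := by
    intro q
    have h1 : (⟨_, hΛX q⟩ : ↥(RedFamily.VA (residue A))) =
        ⟨RedFamily.incA A (qExpand ↥A M (jqModC ↥A)),
          Fermat.Agent.S37.Cusps.FracLocal.inc_mem _⟩ := Subtype.ext (hJA q)
    rw [h1, Fermat.Agent.S37.Cusps.FracLocal.fracRed_inc, RedFamily.rhoA, coeffMap_qExpand_gen,
      coeffMap_jqModC]
  have hutr : ∀ q, Transcendental (ResidueField A) (RedFamily.rhoV (residue A) ⟨_, hΛX q⟩) := by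
    intro q
    rw [hu]
    exact Fermat.Agent.S37.Cusps.EmbeddingsK.transcendental_JK M _
  have hb : ∀ q, ∀ g ∈ intSet hrep,
      Λ q ((g : ↥(datum₁ hrep).O) : F1Bar M) ∈ RedFamily.VA (residue A) := by
    rintro q _ ⟨y, hy, rfl⟩
    exact hint q _ y (coe_coe_intO hrep y hy)
  -- the reduced family
  have hex := fun q => RedFamily.exists_Lbar (datum₁ hrep) hx hrx (Λ q) (hconst q) (hΛX q)
    (hutr q) hsurj hdim (intSet hrep) hS (hb q)
  choose Lbar hLb1 hLb2 using hex
  have hconstk : ∀ q (c : ResidueField A),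
      Lbar q (algebraMap (ResidueField A) (F1C M (ResidueField A)) c) =
        HahnSeries.C ((RingHom.id (ResidueField A)) c) := fun q c =>
    RedFamily.Lbar_algebraMap (Λ q) (hΛX q) (hutr q) (hLb2 q) c
  have hJk : ∀ q, Lbar q (jMC M (ResidueField A)) =
      qExpand (ResidueField A) M (jqModC (ResidueField A)) := by
    intro q
    rw [← hXk, RedFamily.Lbar_X (Λ q) (hΛX q) (hutr q) (hLb2 q), hu]
  -- the reduced family is complete
  have hpos : 0 < Fintype.card Q := by
    rw [hcard]
    exact Module.finrank_pos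
  obtain ⟨q₀⟩ := Fintype.card_pos_iff.mp hpos
  obtain ⟨t, ht⟩ := Fermat.Agent.S37.Wild.GaussA.exists_hyp (datum₁ hrep) hx hrx hsurj hdim
  have hinjk : Function.Injective Lbar := by
    refine Inj.injective_of_hyp ht Λ hinj (hcard.trans hfL.2.symm)
      ((Λ q₀).comp (algebraMap (RatFunc Kb) ↥(F1Bar M))) (fun q y => ?_)
      (RedFamily.VA (residue A)) (RedFamily.rhoV (residue A))
      (RedFamily.lam (Λ q₀) (hΛX q₀) (hutr q₀))
      (fun x => RedFamily.map_Vj (datum₁ hrep) hx hrx (Λ q₀) (hconst q₀) (hΛX q₀) (hutr q₀) x)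
      Lbar hLb1
    have h := comp_algebraMap_eq (Λ q) (Λ q₀) (fun c => by rw [hconst, hconst])
      (by rw [hXL, hJ, hJ])
    exact congrFun (congrArg DFunLike.coe h) y
  have hcardk : Fintype.card Q =
      Module.finrank ↥(ResidueField A)⟮jMC M (ResidueField A)⟯ (F1C M (ResidueField A)) :=
    hcard.trans hn
  -- roots of unity
  have hM0 : M ≠ 0 := NeZero.ne M
  obtain ⟨ζ, hζ⟩ := HasEnoughRootsOfUnity.exists_primitiveRoot Kb M
  set ζ₀ : Kbˣ := (hζ.isUnit hM0).unit with hζ₀def
  have hζ₀ : IsPrimitiveRoot ζ₀ M := by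
    rw [← IsPrimitiveRoot.coe_units_iff]
    exact hζ
  obtain ⟨zA, hz⟩ := Fermat.Agent.S37.Cusps.CountK.exists_unit_of_primitiveRoot (A := A) ζ₀ hζ₀
  have hζk := Fermat.Agent.S37.Cusps.CountK.isPrimitiveRoot_residue hM hζ₀ hz
  have hζ₁ : IsPrimitiveRoot (Units.map A.subtype.toMonoidHom zA) M := by
    have : Units.map A.subtype.toMonoidHom zA = ζ₀ := Units.ext hz
    rw [this]
    exact hζ₀
  -- the count over the base `j(q^M)`
  have hcount := Count.card_poles_eq_of_families hxLM hsepLM hxkM hsepkM M Λ hinj hcard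
    (RingHom.id Kb) (fun q c => hconst q c) hJ Lbar hinjk hcardk (RingHom.id (ResidueField A))
    hconstk hJk (Units.map A.subtype.toMonoidHom zA) hζ₁
    (Units.map (residue ↥A).toMonoidHom zA) hζk
    (fun q q' h => RedFamily.Lbar_rescale (datum₁ hrep) hsurj zA (Λ q) (Λ q') h (Lbar q)
      (Lbar q') (hLb1 q) (hLb1 q'))
  -- back to the base `j(q)`
  have h1 : (FibreSep.poles hxk hsep).card ≤ (FibreSep.poles hxkM hsepkM).card := by
    refine Finset.card_le_card fun v hv => ?_
    rw [FibreSep.mem_poles, ← FibreSep.not_mem_iff] at hv ⊢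
    exact fun h => hv (hpK v h)
  have h2 : (FibreSep.poles hxLM hsepLM).card ≤ (FibreSep.poles hxL hsepL).card := by
    refine Finset.card_le_card fun v hv => ?_
    rw [FibreSep.mem_poles, ← FibreSep.not_mem_iff] at hv ⊢
    exact fun h => hv (hpL v h)
  exact h1.trans (hcount.le.trans h2)

end Fermat.Agent.S48.B.Red.Cusp1.Final

end
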