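/-
PROJECT D (S48), part B, block B3, brick C (cusps of `X₁(M)` in residue characteristic `2`, `3`),
file `PoleSwap` (helper2; sub-leader helper6 #5824 (III-c)): THE POLES OF `j(q)` AND OF `j(q^M)`.

* UP (any field `k`): `J(q^d)` is integral over `ℤ[J(q)]` (main's `S18/B/FkBasics`, the prime chain
  of `S28/IntegralChain` on the integer modular equations), so in EVERY subfield `E` of `k((q))`
  containing both series, every valuation subring of `E` containing `J(q)` contains `J(q^d)`
  (`mem_up`).  Corollary `polesL M : Seams.PolesL M`.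
* DOWN (`k` algebraically closed, `(M : k) ≠ 0`): `J(q)` is integral over `k[J(q^M)]`: for a prime
  `p` with a primitive `p`-th root of unity `ζ`, main's `S28.Defs.HasModPoly k p` gives a monic `Φ`
  with `Φ(X, J(q^p)) = (X - J(q^(p²))) ∏_{b<p} (X - J(ζ^b q))`, of which `X = J(q)` is a root
  (`b = 0`); apply `q ↦ q^d` and chain over the prime factors of `M` (`exists_relK_jq`,
  `isIntegral_down`).  So every valuation subring of `E` containing `k` and `J(q^M)` contains
  `J(q)` (`mem_down`).  Corollary `polesK M k hM : Seams.PolesK M k`.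
-/
import Mathlib
import Fermat.Agent.S18.B.FkBasics
import Fermat.Agent.S28.ModPolyPrime
import Fermat.Agent.S28.Step.OfDefs
import Fermat.Agent.S48.B.Red.Cusp1.Seams

set_option autoImplicit false

noncomputable section

namespace Fermat.Agent.S48.B.Red.Cusp1.PoleSwap

open ModularCurve AlgebraicCurve IntermediateField Polynomial
open Fermat.Agent.S28.IntegralChain (Rel isIntegral_of_rel exists_rel_of_isIntegral)
open Fermat.Agent.S28.LaurentRescale (rescaleU rescaleU_one)
open Fermat.Agent.S48.B.Defs.Model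
open Fermat.Agent.S48.B.B1.Seams (jgen1)
open Fermat.Agent.S48.B.Red.Seams (jC)
open Fermat.Agent.S48.B.Red.Cusp1.Seams

local notation "Kb" => AlgebraicClosure ℚ

/-! ### Valuation subrings are integrally closed -/

/-- elements integral over a ring mapping into a valuation subring lie in it -/
theorem mem_of_isIntegral {F : Type*} [Field F] (O : ValuationSubring F) {R : Type*} [CommRing R]
    [Algebra R F] (hRO : ∀ r : R, algebraMap R F r ∈ O) {x : F} (hx : IsIntegral R x) : x ∈ O := by
  obtain ⟨p, hp, hpx⟩ := hx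
  let φ : R →+* O := (algebraMap R F).codRestrict O.toSubring hRO
  have hφ : (algebraMap O F).comp φ = algebraMap R F := by
    ext r
    rfl
  have hint : IsIntegral O x := ⟨p.map φ, hp.map φ, by
    rw [Polynomial.eval₂_map, hφ]
    exact hpx⟩
  obtain ⟨y, hy⟩ := (IsIntegrallyClosed.isIntegral_iff (R := O) (K := F)).1 hint
  rw [← hy]
  exact y.2

/-! ### UP: `J(q^d)` over `ℤ[J(q)]` -/

section Up

variable (k : Type*) [Field k]

/-- **`J(q^d)` is integral over `ℤ[J(q)]`** inside any subfield of `k((q))` containing both. -/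
theorem isIntegral_up (E : IntermediateField k (LaurentSeries k)) (d : ℕ) [NeZero d] {x y : E}
    (hx : (x : LaurentSeries k) = jqModC k)
    (hy : (y : LaurentSeries k) = qExpand k d (jqModC k)) :
    IsIntegral (Subring.closure ({x} : Set E)) y := by
  obtain ⟨Φ, hm, hΦ⟩ :=
    exists_rel_of_isIntegral (Fermat.Agent.S18.B.FkBasics.isIntegral_qExpand_closure k d)
  refine isIntegral_of_rel hm ?_
  refine Rel.of_map (E.val : E →+* LaurentSeries k) E.val.injective ?_
  show Rel Φ (y : LaurentSeries k) (x : LaurentSeries k)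
  rw [hx, hy]
  exact hΦ

/-- every valuation subring containing `J(q)` contains `J(q^d)` -/
theorem mem_up (E : IntermediateField k (LaurentSeries k)) (d : ℕ) [NeZero d] {x y : E}
    (hx : (x : LaurentSeries k) = jqModC k)
    (hy : (y : LaurentSeries k) = qExpand k d (jqModC k)) (V : ValuationSubring E)
    (hxV : x ∈ V) : y ∈ V := by
  refine mem_of_isIntegral V (R := Subring.closure ({x} : Set E)) ?_ (isIntegral_up k E d hx hy)
  rintro ⟨r, hr⟩
  show r ∈ V.toSubring
  refine (Subring.closure_le (t := V.toSubring)).mpr ?_ hr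
  intro u hu
  rw [Set.mem_singleton_iff] at hu
  rw [hu]
  exact hxV

end Up

/-! ### Two-variable relations over a field -/

section RelK

variable {k : Type*} [Field k] {B : Type*} [CommRing B] [Algebra k B]

/-- `Φ(x, y) = 0` for `Φ ∈ k[Y][X]` (outer variable `X ↦ x`, inner `Y ↦ y`) -/
def RelK (Φ : Polynomial (Polynomial k)) (x y : B) : Prop :=
  Φ.eval₂ (Polynomial.aeval y : Polynomial k →ₐ[k] B).toRingHom x = 0

theorem comp_aeval {C : Type*} [CommRing C] [Algebra k C] (f : B →ₐ[k] C) (y : B) :
    (f : B →+* C).comp (Polynomial.aeval y : Polynomial k →ₐ[k] B).toRingHom =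
      (Polynomial.aeval (f y) : Polynomial k →ₐ[k] C).toRingHom := by
  refine Polynomial.ringHom_ext (fun a => ?_) ?_
  · show f (Polynomial.aeval y (Polynomial.C a)) = Polynomial.aeval (f y) (Polynomial.C a)
    rw [Polynomial.aeval_C, Polynomial.aeval_C, AlgHom.commutes]
  · show f (Polynomial.aeval y Polynomial.X) = Polynomial.aeval (f y) Polynomial.X
    rw [Polynomial.aeval_X, Polynomial.aeval_X]

theorem RelK.map {C : Type*} [CommRing C] [Algebra k C] (f : B →ₐ[k] C)
    {Φ : Polynomial (Polynomial k)} {x y : B} (h : RelK Φ x y) : RelK Φ (f x) (f y) := by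
  unfold RelK at h ⊢
  have h1 := Polynomial.hom_eval₂ Φ (Polynomial.aeval y : Polynomial k →ₐ[k] B).toRingHom
    (f : B →+* C) x
  rw [h, map_zero, comp_aeval] at h1
  exact h1.symm

theorem RelK.of_map {C : Type*} [CommRing C] [Algebra k C] (f : B →ₐ[k] C)
    (hf : Function.Injective f) {Φ : Polynomial (Polynomial k)} {x y : B}
    (h : RelK Φ (f x) (f y)) : RelK Φ x y := by
  unfold RelK at h ⊢
  apply hf
  have h1 := Polynomial.hom_eval₂ Φ (Polynomial.aeval y : Polynomial k →ₐ[k] B).toRingHom
    (f : B →+* C) x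
  rw [comp_aeval] at h1
  rw [map_zero]
  exact h1.trans h

/-- the generator of `k[y]` -/
def genY (y : B) : Algebra.adjoin k ({y} : Set B) := ⟨y, Algebra.subset_adjoin rfl⟩

theorem val_comp_aeval_genY (y : B) :
    (algebraMap (Algebra.adjoin k ({y} : Set B)) B).comp
      (Polynomial.aeval (genY (k := k) y) : Polynomial k →ₐ[k] _).toRingHom =
      (Polynomial.aeval y : Polynomial k →ₐ[k] B).toRingHom :=
  comp_aeval (Algebra.adjoin k ({y} : Set B)).val (genY y)

theorem aeval_genY_surjective (y : B) :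
    Function.Surjective (Polynomial.aeval (genY (k := k) y) : Polynomial k →ₐ[k] _) := by
  rintro ⟨t, ht⟩
  have ht' := ht
  rw [Algebra.adjoin_singleton_eq_range_aeval] at ht'
  obtain ⟨q, hq⟩ := ht'
  refine ⟨q, Subtype.ext ?_⟩
  have h := congrArg (fun g : Polynomial k →+* B => g q) (val_comp_aeval_genY (k := k) y)
  exact h.trans hq

/-- a monic relation gives integrality over `k[y]` -/
theorem isIntegral_of_relK {Φ : Polynomial (Polynomial k)} (hΦ : Φ.Monic) {x y : B}
    (h : RelK Φ x y) : IsIntegral (Algebra.adjoin k ({y} : Set B)) x := by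
  refine ⟨Φ.map (Polynomial.aeval (genY (k := k) y) : Polynomial k →ₐ[k] _).toRingHom,
    hΦ.map _, ?_⟩
  rw [Polynomial.eval₂_map, val_comp_aeval_genY]
  exact h

/-- conversely, integrality over `k[y]` gives a monic relation -/
theorem exists_relK_of_isIntegral {x y : B}
    (h : IsIntegral (Algebra.adjoin k ({y} : Set B)) x) :
    ∃ Φ : Polynomial (Polynomial k), Φ.Monic ∧ RelK Φ x y := by
  obtain ⟨P, hP, hPx⟩ := h
  have hlifts : P ∈ Polynomial.lifts
      (Polynomial.aeval (genY (k := k) y) : Polynomial k →ₐ[k] _).toRingHom :=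
    (Polynomial.lifts_iff_coeff_lifts P).mpr fun n => aeval_genY_surjective y (P.coeff n)
  obtain ⟨Φ, hΦP, -, hΦm⟩ := Polynomial.lifts_and_natDegree_eq_and_monic hlifts hP
  refine ⟨Φ, hΦm, ?_⟩
  unfold RelK
  rw [← hΦP, Polynomial.eval₂_map, val_comp_aeval_genY] at hPx
  exact hPx

/-- transitivity of integrality along `k[z] ⊆ k[z][y]` -/
theorem isIntegral_adjoin_trans {x y z : B}
    (hxy : IsIntegral (Algebra.adjoin k ({y} : Set B)) x)
    (hyz : IsIntegral (Algebra.adjoin k ({z} : Set B)) y) :
    IsIntegral (Algebra.adjoin k ({z} : Set B)) x := by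
  let R : Subalgebra k B := Algebra.adjoin k ({z} : Set B)
  let C : Subalgebra R B := integralClosure R B
  have hle : Algebra.adjoin k ({y} : Set B) ≤ C.restrictScalars k := by
    refine Algebra.adjoin_le ?_
    intro u hu
    rw [Set.mem_singleton_iff] at hu
    rw [hu]
    exact hyz
  let ι : Algebra.adjoin k ({y} : Set B) →+* C :=
    { toFun := fun t => ⟨(t : B), hle t.2⟩
      map_one' := rfl
      map_mul' := fun _ _ => rfl
      map_zero' := rfl
      map_add' := fun _ _ => rfl }
  have hxC : IsIntegral C x := by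
    have := IsIntegral.map_of_comp_eq (R := Algebra.adjoin k ({y} : Set B)) (S := B) (T := C)
      (U := B) ι (RingHom.id B) (by ext t; rfl) hxy
    simpa using this
  exact isIntegral_trans (R := R) (A := C) x hxC

end RelK

/-! ### DOWN: `J(q)` over `k[J(q^M)]` -/

section Down

variable (k : Type*) [Field k]

/-- **the prime step**: `J(q)` is a root of the modular polynomial `Φ_p(X, J(q^p))`. -/
theorem exists_relK_prime (p : ℕ) [NeZero p] (hp : p.Prime) (ζ : kˣ) (hζ : IsPrimitiveRoot ζ p) :
    ∃ Φ : Polynomial (Polynomial k), Φ.Monic ∧ RelK Φ (jqModC k) (qExpand k p (jqModC k)) := by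
  obtain ⟨Φ, hm, -, hfac⟩ := Fermat.Agent.S28.ModPolyPrime.hasModPoly k p hp
  refine ⟨Φ, hm, ?_⟩
  unfold RelK
  rw [← Polynomial.eval_map, hfac ζ hζ, Polynomial.eval_mul, Polynomial.eval_prod]
  refine mul_eq_zero_of_right _ (Finset.prod_eq_zero (i := 0)
    (Finset.mem_range.mpr (Nat.pos_of_ne_zero (NeZero.ne p))) ?_)
  rw [pow_zero, rescaleU_one, Polynomial.eval_sub, Polynomial.eval_X, Polynomial.eval_C, sub_self]

variable [IsAlgClosed k]

/-- **the prime chain, downwards**: `J(q)` satisfies a monic relation over `k[J(q^M)]`. -/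
theorem exists_relK_jq : ∀ (M : ℕ) [NeZero M], (M : k) ≠ 0 →
    ∃ Φ : Polynomial (Polynomial k), Φ.Monic ∧ RelK Φ (jqModC k) (qExpand k M (jqModC k)) := by
  intro M
  induction M using Nat.strong_induction_on with
  | _ M ih =>
    intro hM hMk
    by_cases hM1 : M = 1
    · subst hM1
      refine ⟨Polynomial.X - Polynomial.C Polynomial.X, Polynomial.monic_X_sub_C _, ?_⟩
      unfold RelK
      rw [qExpand_one_apply, Polynomial.eval₂_sub, Polynomial.eval₂_X, Polynomial.eval₂_C]
      show jqModC k - Polynomial.aeval (jqModC k) Polynomial.X = 0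
      rw [Polynomial.aeval_X, sub_self]
    have hp : M.minFac.Prime := Nat.minFac_prime hM1
    set p := M.minFac with hpdef
    obtain ⟨d, hd⟩ : p ∣ M := Nat.minFac_dvd M
    have hM0 : M ≠ 0 := NeZero.ne M
    have hd0 : d ≠ 0 := by
      rintro rfl
      exact hM0 (by rw [hd, mul_zero])
    have : NeZero d := ⟨hd0⟩
    have : NeZero p := ⟨hp.ne_zero⟩
    have hlt : d < M := by
      rw [hd]
      calc d = 1 * d := (one_mul _).symm
        _ < p * d := Nat.mul_lt_mul_of_pos_right hp.one_lt (Nat.pos_of_ne_zero hd0)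
    have hpk : (p : k) ≠ 0 := by
      intro h0
      apply hMk
      rw [hd, Nat.cast_mul, h0, zero_mul]
    have hdk : (d : k) ≠ 0 := by
      intro h0
      apply hMk
      rw [hd, Nat.cast_mul, h0, mul_zero]
    obtain ⟨ζ, hζ⟩ := Fermat.Agent.S28.StepDeg.exists_isPrimitiveRoot_units (k := k) (p := p) hpk
    obtain ⟨Φ, hΦm, hΦ⟩ := exists_relK_prime k p hp ζ hζ
    obtain ⟨Ψ, hΨm, hΨ⟩ := ih d hlt hdk
    -- `J(q^d)` over `k[J(q^(d p))]`
    have h1 : RelK Φ (qExpand k d (jqModC k)) (qExpand k d (qExpand k p (jqModC k))) :=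
      hΦ.map (qExpandAlgHomC k d)
    have h2 : qExpand k d (qExpand k p (jqModC k)) = qExpand k M (jqModC k) := by
      rw [qExpand_qExpand]
      exact qExpand_congr (by rw [hd, mul_comm]) (jqModC k)
    rw [h2] at h1
    exact exists_relK_of_isIntegral
      (isIntegral_adjoin_trans (isIntegral_of_relK hΨm hΨ) (isIntegral_of_relK hΦm h1))

/-- **`J(q)` is integral over `k[J(q^M)]`** inside `k((q))`. -/
theorem isIntegral_jq (M : ℕ) [NeZero M] (hM : (M : k) ≠ 0) :
    IsIntegral (Algebra.adjoin k ({qExpand k M (jqModC k)} : Set (LaurentSeries k)))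
      (jqModC k) := by
  obtain ⟨Φ, hm, hΦ⟩ := exists_relK_jq k M hM
  exact isIntegral_of_relK hm hΦ

/-- **`J(q)` is integral over `k[J(q^M)]`** inside any subfield of `k((q))` containing both. -/
theorem isIntegral_down (E : IntermediateField k (LaurentSeries k)) (M : ℕ) [NeZero M]
    (hM : (M : k) ≠ 0) {x y : E} (hx : (x : LaurentSeries k) = jqModC k)
    (hy : (y : LaurentSeries k) = qExpand k M (jqModC k)) :
    IsIntegral (Algebra.adjoin k ({y} : Set E)) x := by
  obtain ⟨Φ, hm, hΦ⟩ := exists_relK_jq k M hM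
  refine isIntegral_of_relK hm (RelK.of_map E.val E.val.injective ?_)
  show RelK Φ (x : LaurentSeries k) (y : LaurentSeries k)
  rw [hx, hy]
  exact hΦ

/-- every valuation subring containing the constants and `J(q^M)` contains `J(q)` -/
theorem mem_down (E : IntermediateField k (LaurentSeries k)) (M : ℕ) [NeZero M]
    (hM : (M : k) ≠ 0) {x y : E} (hx : (x : LaurentSeries k) = jqModC k)
    (hy : (y : LaurentSeries k) = qExpand k M (jqModC k)) (V : ValuationSubring E)
    (hk : ∀ c : k, algebraMap k E c ∈ V) (hyV : y ∈ V) : x ∈ V := by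
  refine mem_of_isIntegral V (R := Algebra.adjoin k ({y} : Set E)) ?_
    (isIntegral_down k E M hM hx hy)
  rintro ⟨r, hr⟩
  let W : Subalgebra k E := { V.toSubring with algebraMap_mem' := hk }
  have hle : Algebra.adjoin k ({y} : Set E) ≤ W := by
    refine Algebra.adjoin_le ?_
    intro u hu
    rw [Set.mem_singleton_iff] at hu
    rw [hu]
    exact hyV
  exact hle hr

end Down

/-! ### The two seams of `Cusp1/Seams` -/

section Seams

variable (M : ℕ) [NeZero M]

theorem coe_jgen1 : ((jgen1 M : F1Bar M) : LaurentSeries Kb) = jqModC Kb := by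
  show ((IntermediateField.inclusion (laurentBaseChange_mono Kb (full_le_F1 M))
    (Fermat.Agent.S24.DegreeAlg.jgen M) : F1Bar M) : LaurentSeries Kb) = _
  rw [IntermediateField.coe_inclusion, Fermat.Agent.S24.DegreeAlg.coe_jgen, coeffEmb,
    ← jqModC_rat, coeffMap_jqModC]

/-- **`PolesL`**: in characteristic zero, `j(q^M)` is regular wherever `j(q)` is. -/
theorem polesL : PolesL M := fun v hv =>
  mem_up Kb (F1Bar M) M (coe_jgen1 M) (coe_jM1 M) v.toValuationSubring hv

/-- **`PolesK`**: over an algebraically closed `k` with `M ≠ 0`, `j̄(q)` is regular wherever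
`j̄(q^M)` is. -/
theorem polesK (k : Type*) [Field k] [IsAlgClosed k] (hM : (M : k) ≠ 0) : PolesK M k := fun v hv =>
  mem_down k (F1C M k) M hM (Fermat.Agent.S48.B.Red.Seams.coe_jC M k) (coe_jMC M k)
    v.toValuationSubring v.algebraMap_mem' hv

end Seams

end Fermat.Agent.S48.B.Red.Cusp1.PoleSwap

end
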