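/-
PROJECT D (S48), part B, block B3, brick C (cusps of `X₁(M)` in residue characteristic `2`, `3`),
file `Main` (helper6): THE END OF BRICK C ON ONE SEAM.

  `cuspCount₁ : IgusaDeg M → ℓ.Prime → ¬ ℓ ∣ M → A.LiesOverPrime ℓ → CuspFam1 M A →
      SeamsWild.CuspCount₁ M A`
  `cuspCountAll : IgusaDeg M → CuspFamAll M → SeamsWild.CuspCountAll M`

`Cusp1/Final.cuspCount₁_of` with its side hypotheses discharged: `HasRep` by helper1's
`Bases1.hasRep_of_igusa`, `SwapL` / `SwapK` by helper1's `Cusp1/BaseSwap`, `PolesL` / `PolesK` by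
helper2's `Cusp1/PoleSwap`.  What is left of brick C is the complete family `CuspFam1 M A` at the
valuation rings over `2` and `3` (`Cusp1/FromFull`, helper16).
-/
import Mathlib
import Fermat.Agent.S18.ResidueBasics
import Fermat.Agent.S48.B.Red.Bases1
import Fermat.Agent.S48.B.Red.Cusp1.Final
import Fermat.Agent.S48.B.Red.Cusp1.BaseSwap
import Fermat.Agent.S48.B.Red.Cusp1.PoleSwap

set_option autoImplicit false
set_option linter.unusedSectionVars false
set_option linter.style.haveILetI false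
set_option synthInstance.maxHeartbeats 400000
set_option warn.classDefReducibility false

noncomputable section

namespace Fermat.Agent.S48.B.Red.Cusp1.Main

open IsLocalRing
open Fermat.Agent.S48.B.Red.Seams Fermat.Agent.S48.B.Red.SeamsWild
open Fermat.Agent.S48.B.Red.Cusp1.Seams

local notation "Kb" => AlgebraicClosure ℚ

variable {M : ℕ} [NeZero M] {A : ValuationSubring Kb}

/-- **The cusp count for `X₁(M)` at `A`** (`A` over a prime `ℓ ∤ M`) from `IgusaDeg M` and the
complete family `CuspFam1 M A`. -/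
theorem cuspCount₁ (hdeg : IgusaDeg M) {ℓ : ℕ} (hℓ : ℓ.Prime) (hℓM : ¬ ℓ ∣ M)
    (hA : A.LiesOverPrime ℓ) (hfam : CuspFam1 M A) : CuspCount₁ M A := by
  intro _
  haveI : Fact ℓ.Prime := ⟨hℓ⟩
  have hM : ((M : ℕ) : ResidueField A) ≠ 0 :=
    Fermat.Agent.S18.ResidueBasics.natCast_ne_zero_of_not_dvd A hA hℓM
  exact Fermat.Agent.S48.B.Red.Cusp1.Final.cuspCount₁_of hdeg hℓ hℓM hA
    (Fermat.Agent.S48.B.Red.Bases1.hasRep_of_igusa hdeg hℓ hℓM hA) hfam
    (Fermat.Agent.S48.B.Red.Cusp1.BaseSwap.swapL M)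
    (Fermat.Agent.S48.B.Red.Cusp1.BaseSwap.swapK M (ResidueField A) hM)
    (Fermat.Agent.S48.B.Red.Cusp1.PoleSwap.polesL M)
    (Fermat.Agent.S48.B.Red.Cusp1.PoleSwap.polesK M (ResidueField A) hM)

/-- the complete families at every `A` over `2`, `3` (the ONE open seam of brick C) -/
def CuspFamAll (M : ℕ) [NeZero M] : Prop :=
  ∀ ℓ : ℕ, ℓ.Prime → ¬ ℓ ∣ M → (ℓ = 2 ∨ ℓ = 3) →
    ∀ A : ValuationSubring Kb, A.LiesOverPrime ℓ → CuspFam1 M A

/-- **`SeamsWild.CuspCountAll M`** from `IgusaDeg M` and the complete families. -/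
theorem cuspCountAll (hdeg : IgusaDeg M) (hfam : CuspFamAll M) : CuspCountAll M :=
  fun ℓ hℓ hℓM h23 A hA => cuspCount₁ hdeg hℓ hℓM hA (hfam ℓ hℓ hℓM h23 A hA)

end Fermat.Agent.S48.B.Red.Cusp1.Main

end
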